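import Fermat.Agent.S35.H433.ValForm
import Fermat.Agent.S35.G.SpecLevel

/-!
# S35 / (G') — ALG-FROB from the three leaves of the A2 wall (helper433)

Adapter from `H433.frobToricVal_of_leaves` to the interface of `Fermat/Agent/S35/G/SpecLevel.lean`
(architect helper450).

WARNING (reported to helper450, note #8042): `G.PowV` admits `g = 0`, hence `G.AlgFrobStatement` as
frozen is FALSE (`h := w`).  This file proves the corrected statement `AlgFrobStatementU`, which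
is `G.AlgFrobStatement` VERBATIM with `G.PowV` replaced by `PowVU` (`g ≠ 0` added).

`algFrobU_of_leaves : PuritySmoothLeaf → PurityNodeLeaf → GlueLeaf → AlgFrobStatementU`.
Only `CutBy` on the finite chart `Bf` is used.

Second corrected form, which keeps the frozen `G.PowV`: `AlgFrobStatementT` is
`G.AlgFrobStatement` VERBATIM, restricted to functions of the form `h = ψ u / u`
(`= G.frobSub ψ 1 u`, `u ≠ 0`).  Such an `h` is a unit at both components, which excludes the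
degenerate root `g = 0`.  This is the only case used by `G.levelFrob_of_parts`
(see `LevelFrob.lean`: the assembly with the frozen leaves of `S35/G/SpecLevel.lean`).
`algFrobT_of_leaves : PuritySmoothLeaf → PurityNodeLeaf → GlueLeaf → AlgFrobStatementT`.
-/

set_option autoImplicit false
set_option linter.unusedSectionVars false
set_option linter.unusedVariables false

namespace Fermat.Agent.S35.H433

open Fermat.Agent.A2 Fermat.Agent.A2.Alg Fermat.Agent.A2.H348 Fermat.Agent.A2.Alg.H348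
open Fermat.Agent.S35.G (CutBy NodeStable)

section Defs

variable {R F : Type*} [CommRing R] [Field F] [Algebra R F]

/-- `u ≡ g ^ m mod w V` for a UNIT `g` of `V`. -/
def PowVU (w : R) (V : ValuationSubring F) (m : ℕ) (u : F) : Prop :=
  ∃ g : F, g ≠ 0 ∧ g ∈ V ∧ g⁻¹ ∈ V ∧ (u - g ^ m) * (algebraMap R F w)⁻¹ ∈ V

theorem nonunits_mul_mem {V : ValuationSubring F} {a b : F} (ha : a ∈ V.nonunits) (hb : b ∈ V) :
    a * b ∈ V.nonunits := by
  rw [ValuationSubring.mem_nonunits_iff] at ha ⊢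
  rw [map_mul]
  have hb' : V.valuation b ≤ 1 := (V.valuation_le_one_iff b).2 hb
  calc V.valuation a * V.valuation b ≤ V.valuation a * 1 := by gcongr
    _ = V.valuation a := mul_one _
    _ < 1 := ha

/-- `PowVU` at `V`, `V ⊆ W`, `w` not a unit of `W`  ⟹  `GSplitV` at `W`. -/
theorem gSplitV_of_powVU {w : R} {V W : ValuationSubring F} (hVW : ∀ z : F, z ∈ V → z ∈ W)
    (hwW : (algebraMap R F w)⁻¹ ∉ W) (hRW : ∀ r : R, algebraMap R F r ∈ W) {m : ℕ} {u : F}
    (h : PowVU w V m u) : GSplitV R W m u := by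
  obtain ⟨g, hg0, hg, hgi, hu⟩ := h
  refine ⟨g, hg0, hVW _ hg, hVW _ hgi, 1, isUnit_one, ?_⟩
  have hw0 : algebraMap R F w ≠ 0 := by
    intro h0
    apply hwW
    rw [h0, inv_zero]
    exact W.zero_mem
  have hgm : g ^ m ≠ 0 := pow_ne_zero _ hg0
  have e : u * (g ^ m)⁻¹ - algebraMap R F 1
      = algebraMap R F w * (((u - g ^ m) * (algebraMap R F w)⁻¹) * (g⁻¹) ^ m) := by
    rw [map_one, inv_pow]
    field_simp
  rw [e]
  refine nonunits_mul_mem ?_ (W.mul_mem _ _ (hVW _ hu) (W.pow_mem (hVW _ hgi) m))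
  rw [ValuationSubring.mem_nonunits_iff_or]
  exact Or.inr hwW

end Defs

section Chart

variable {R E F : Type*} [CommRing R] [IsDomain R] [IsDiscreteValuationRing R]
  [Field E] [CharZero E] [Algebra R E] [IsFractionRing R E]
  [Field F] [Algebra E F] [Algebra R F] [IsScalarTower R E F]

/-- A polynomial expression in `x` with a coefficient equal to `1` is not in a component. -/
theorem aeval_not_mem_of_coeff_one (w : R) (x : F) (B : Subalgebra R F) (hB : ChartCtx E w x B)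
    {A : Subalgebra R F} {p p' : Ideal B} [hp : p.IsPrime]
    (D : CompData (Algebra.adjoin R ({x} : Set F)) B p p' w) (P : Polynomial R) (k : ℕ)
    (hk : P.coeff k = 1) (b : B) (hb : (b : F) = Polynomial.aeval x P) : b ∉ p := by
  intro hbp
  have hx : Transcendental R x := H34.transcendental_of_field hB.hx
  have hbA : (b : F) ∈ Algebra.adjoin R ({x} : Set F) := by
    rw [hb, Algebra.adjoin_singleton_eq_range_aeval]
    exact ⟨P, rfl⟩
  obtain ⟨a', ha', hba⟩ := D.contract b hbA hbp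
  rw [Algebra.adjoin_singleton_eq_range_aeval] at ha'
  obtain ⟨P', rfl⟩ := ha'
  have h0 : Polynomial.aeval x (P - Polynomial.C w * P') = 0 := by
    rw [map_sub, map_mul, Polynomial.aeval_C, ← hb, hba]
    simp
  have h1 : P - Polynomial.C w * P' = 0 := by
    by_contra hne
    exact hx ⟨_, hne, h0⟩
  have h2 := congrArg (fun T => Polynomial.coeff T k) h1
  simp only [Polynomial.coeff_sub, Polynomial.coeff_C_mul, Polynomial.coeff_zero, hk] at h2
  have hunit : IsUnit w := IsUnit.of_mul_eq_one (P'.coeff k) (by linear_combination -h2)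
  exact hB.hw.not_isUnit hunit

/-- The local ring of a component of a chart satisfies `ValCtx`. -/
theorem valCtx_locAt (w : R) (x : F) (B : Subalgebra R F) (hB : ChartCtx E w x B)
    {p p' : Ideal B} [hp : p.IsPrime]
    (D : CompData (Algebra.adjoin R ({x} : Set F)) B p p' w) :
    ValCtx w x (D.valuationSubring (adjoin_le_of_ctx hB)) := by
  have hxB : x ∈ B := H609.self_mem_chart x B hB.hB
  have hx : Transcendental R x := H34.transcendental_of_field hB.hx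
  have hx0 : x ≠ 0 := by
    rintro rfl
    exact hx ⟨Polynomial.X, Polynomial.X_ne_zero, by simp⟩
  -- an element of `B ∖ p` is a unit of `B_p`
  have hunit : ∀ b : B, b ∉ p → (b : F)⁻¹ ∈ locAt B p := fun b hb =>
    ⟨b, hb, by rw [mul_inv_cancel₀ (coe_ne_zero_of_not_mem hb)]; exact B.one_mem⟩
  have hmemB : ∀ b : F, b ∈ B → b ∈ locAt B p := fun b hb =>
    ⟨1, fun h => hp.ne_top ((Ideal.eq_top_iff_one p).2 h), by simpa using hb⟩
  have h1 : (⟨x, hxB⟩ : B) ∉ p :=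
    aeval_not_mem_of_coeff_one (A := B) w x B hB D Polynomial.X 1 (by simp) _ (by simp)
  have h2 : ∀ r : R, (⟨x - algebraMap R F r, B.sub_mem hxB (B.algebraMap_mem r)⟩ : B) ∉ p :=
    fun r => aeval_not_mem_of_coeff_one (A := B) w x B hB D (Polynomial.X - Polynomial.C r) 1
      (by simp) _ (by simp)
  have h3 : ∀ r : R, (⟨1 - algebraMap R F r * x,
      B.sub_mem B.one_mem (B.mul_mem (B.algebraMap_mem r) hxB)⟩ : B) ∉ p :=
    fun r => aeval_not_mem_of_coeff_one (A := B) w x B hB D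
      (1 - Polynomial.C r * Polynomial.X) 0 (by simp) _ (by simp)
  refine ⟨fun r => (locAt B p).algebraMap_mem r, hmemB x hxB, hunit _ h1, D.w_inv_notMem,
    fun r => hunit _ (h2 r), fun r => ?_⟩
  have e : (x⁻¹ - algebraMap R F r)⁻¹ = x * (1 - algebraMap R F r * x)⁻¹ := by
    have hne : (1 - algebraMap R F r * x) ≠ 0 := coe_ne_zero_of_not_mem (h3 r)
    have hne' : x⁻¹ - algebraMap R F r ≠ 0 := by
      intro h
      apply hne
      have : 1 - algebraMap R F r * x = (x⁻¹ - algebraMap R F r) * x := by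
        field_simp
      rw [this, h, zero_mul]
    field_simp
  rw [e]
  exact (locAt B p).mul_mem (hmemB x hxB) (hunit _ (h3 r))

/-- A valuation ring cutting out the component `p` is contained in `B_p`. -/
theorem le_locAt_of_cut {w : R} {B : Subalgebra R F} {A : Subalgebra R F} {p p' : Ideal B}
    [hp : p.IsPrime] (D : CompData A B p p' w) (hAB : A ≤ B) (V : ValuationSubring F)
    (hle : ∀ b ∈ B, b ∈ V) (hcut : ∀ b : B, b ∈ p ↔ (b : F) * (algebraMap R F w)⁻¹ ∈ V)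
    (z : F) (hz : z ∈ V) : z ∈ locAt B p := by
  rcases D.mem_or_inv_mem hAB z with h | h
  · exact h
  · by_contra hz'
    obtain ⟨s, hs, hsz⟩ := D.mul_inv_mem h (by rwa [inv_inv])
    apply hs
    rw [hcut]
    have hz0 : z ≠ 0 := by
      rintro rfl
      exact hz' (locAt B p).zero_mem
    have hw0 := D.w_ne
    have e : (s : F) * (algebraMap R F w)⁻¹ = (s : F) * (z⁻¹ * (algebraMap R F w)⁻¹) * z := by
      field_simp
    rw [e]
    exact V.mul_mem _ _ (hle _ hsz) hz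

end Chart

section Phi

variable {R F : Type*} [CommRing R] [Field F] [Algebra R F]

/-- The restriction to `B` of an automorphism of `F` mapping `B` into itself. -/
def restrictHom (φ : F ≃+* F) (B : Subalgebra R F) (h : ∀ b : F, b ∈ B → φ b ∈ B) : B →+* B where
  toFun b := ⟨φ b, h b b.2⟩
  map_one' := Subtype.ext (by simp)
  map_mul' a b := Subtype.ext (by simp)
  map_zero' := Subtype.ext (by simp)
  map_add' a b := Subtype.ext (by simp)

@[simp] theorem coe_restrictHom (φ : F ≃+* F) (B : Subalgebra R F)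
    (h : ∀ b : F, b ∈ B → φ b ∈ B) (b : B) : ((restrictHom φ B h b : B) : F) = φ b := rfl

/-- `ψ` maps the component cut out by `V` into itself. -/
theorem restrictHom_mem_of_cut {w : R} {B : Subalgebra R F} {p : Ideal B}
    (V : ValuationSubring F) (hle : ∀ b ∈ B, b ∈ V)
    (hcut : ∀ b : B, b ∈ p ↔ (b : F) * (algebraMap R F w)⁻¹ ∈ V)
    (ψ : F ≃+* F) (hψB : ∀ b : F, b ∈ B → ψ b ∈ B) (hψV : ∀ f ∈ V, ψ f ∈ V)
    (t : R) (hψw : ψ (algebraMap R F w) = algebraMap R F w * algebraMap R F t)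
    (hw0 : algebraMap R F w ≠ 0) {b : B} (hb : b ∈ p) : restrictHom ψ B hψB b ∈ p := by
  rw [hcut] at hb ⊢
  have h1 := hψV _ hb
  rw [map_mul, map_inv₀, hψw] at h1
  have ht0 : algebraMap R F t ≠ 0 := by
    intro h
    have : ψ (algebraMap R F w) = 0 := by rw [hψw, h, mul_zero]
    exact hw0 ((map_eq_zero_iff ψ ψ.injective).1 this)
  have e : ((restrictHom ψ B hψB b : B) : F) * (algebraMap R F w)⁻¹
      = ψ b * (algebraMap R F w * algebraMap R F t)⁻¹ * algebraMap R F t := by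
    rw [coe_restrictHom]
    field_simp
  rw [e]
  exact V.mul_mem _ _ h1 (hle _ (B.algebraMap_mem t))

/-- `ψ` preserves `B_p` if it preserves `B` and `p` (both ways). -/
theorem phi_mem_locAt_iff {B : Subalgebra R F} {p : Ideal B} [hp : p.IsPrime] (ψ : F ≃+* F)
    (hψB : ∀ b : F, b ∈ B → ψ b ∈ B) (hψB' : ∀ b : F, ψ b ∈ B → b ∈ B)
    (hmap : ∀ b : B, restrictHom ψ B hψB b ∈ p ↔ b ∈ p) (z : F) :
    ψ z ∈ locAt B p ↔ z ∈ locAt B p := by
  constructor
  · rintro ⟨s, hs, hsz⟩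
    have hs'B : ψ.symm (s : F) ∈ B := hψB' _ (by rw [ψ.apply_symm_apply]; exact s.2)
    refine ⟨⟨ψ.symm s, hs'B⟩, ?_, ?_⟩
    · intro h
      apply hs
      have := (hmap ⟨ψ.symm s, hs'B⟩).2 h
      have e : restrictHom ψ B hψB ⟨ψ.symm s, hs'B⟩ = s :=
        Subtype.ext (by simp)
      rwa [e] at this
    · apply hψB'
      show ψ (ψ.symm (s : F) * z) ∈ B
      rw [map_mul, ψ.apply_symm_apply]
      exact hsz
  · rintro ⟨s, hs, hsz⟩
    refine ⟨restrictHom ψ B hψB s, fun h => hs ((hmap s).1 h), ?_⟩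
    rw [coe_restrictHom, ← map_mul]
    exact hψB _ hsz

end Phi

section Final

variable {R E F : Type*} [CommRing R] [IsDomain R] [IsDiscreteValuationRing R]
  [Field E] [CharZero E] [Algebra R E] [IsFractionRing R E]
  [Field F] [Algebra E F] [Algebra R F] [IsScalarTower R E F]

/-- `ψ` preserves (both ways) a component of a chart which is cut out by a `ψ`-stable valuation
ring. -/
theorem restrictHom_mem_iff_of_cut (w : R) (x : F) (B : Subalgebra R F) (hB : ChartCtx E w x B)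
    {p p' : Ideal B} [hp : p.IsPrime] (hinf : p ⊓ p' = Ideal.span {algebraMap R B w})
    (hle' : ¬ p' ≤ p) (V : ValuationSubring F) (hle : ∀ b ∈ B, b ∈ V)
    (hcut : ∀ b : B, b ∈ p ↔ (b : F) * (algebraMap R F w)⁻¹ ∈ V)
    (ψ : F ≃+* F) (ψR : R ≃+* R)
    (hψR : ∀ r : R, ψ (algebraMap R F r) = algebraMap R F (ψR r))
    (hψB : ∀ b : F, b ∈ B → ψ b ∈ B) (hψB' : ∀ b : F, ψ b ∈ B → b ∈ B)
    (hψV : ∀ f ∈ V, ψ f ∈ V) (b : B) : restrictHom ψ B hψB b ∈ p ↔ b ∈ p := by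
  have hw0 : algebraMap R F w ≠ 0 := by
    intro h
    exact hB.hw.ne_zero (H34.algebraMap_RF_injective (R := R) (F := F) E (by rw [h, map_zero]))
  have hwp : algebraMap R B w ∈ p := by
    have : algebraMap R B w ∈ p ⊓ p' := by
      rw [hinf]; exact Ideal.mem_span_singleton_self _
    exact this.1
  -- `ψR` and its inverse preserve the maximal ideal `(w)`
  have hmax : ∀ (e : R ≃+* R), ∃ t : R, e w = w * t := by
    intro e
    have h1 : e w ∈ IsLocalRing.maximalIdeal R := by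
      rw [IsLocalRing.mem_maximalIdeal, mem_nonunits_iff]
      intro hu
      apply hB.hw.not_isUnit
      have := hu.map e.symm
      rwa [RingEquiv.symm_apply_apply] at this
    rw [hB.hw.maximalIdeal_eq, Ideal.mem_span_singleton] at h1
    exact h1
  obtain ⟨t, ht⟩ := hmax ψR
  have hfwd : ∀ b : B, b ∈ p → restrictHom ψ B hψB b ∈ p := fun b hb =>
    restrictHom_mem_of_cut V hle hcut ψ hψB hψV t (by rw [hψR, ht, map_mul]) hw0 hb
  refine ⟨fun h => ?_, hfwd b⟩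
  -- the prime `ψ(p)` contains `w` and is contained in `p`
  have hψsB : ∀ b : F, b ∈ B → ψ.symm b ∈ B := fun b hb =>
    hψB' _ (by rw [ψ.apply_symm_apply]; exact hb)
  set Q₁ : Ideal B := Ideal.comap (restrictHom ψ.symm B hψsB) p with hQ₁
  have hQprime : Q₁.IsPrime := Ideal.comap_isPrime _ _
  have hQle : Q₁ ≤ p := by
    intro c hc
    have := hfwd _ hc
    have e : restrictHom ψ B hψB (restrictHom ψ.symm B hψsB c) = c :=
      Subtype.ext (by simp)
    rwa [e] at this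
  have hwQ : algebraMap R B w ∈ Q₁ := by
    obtain ⟨t', ht'⟩ := hmax ψR.symm
    rw [hQ₁, Ideal.mem_comap]
    have e : restrictHom ψ.symm B hψsB (algebraMap R B w)
        = algebraMap R B w * algebraMap R B t' := by
      apply Subtype.ext
      rw [coe_restrictHom]
      show ψ.symm (algebraMap R F w) = algebraMap R F w * algebraMap R F t'
      rw [RingEquiv.symm_apply_eq, map_mul, hψR, hψR, ← map_mul, ← map_mul, ← ht',
        RingEquiv.apply_symm_apply]
    rw [e]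
    exact p.mul_mem_right _ hwp
  have hinfle : p ⊓ p' ≤ Q₁ := by
    rw [hinf, Ideal.span_singleton_le_iff_mem]
    exact hwQ
  have hpQ : p ≤ Q₁ := by
    rcases (Ideal.IsPrime.inf_le hQprime).1 hinfle with h' | h'
    · exact h'
    · exact absurd (h'.trans hQle) hle'
  have := hpQ h
  rw [hQ₁, Ideal.mem_comap] at this
  have e : restrictHom ψ.symm B hψsB (restrictHom ψ B hψB b) = b := Subtype.ext (by simp)
  rwa [e] at this

end Final

section Unit

variable {R F : Type*} [CommRing R] [Field F] [Algebra R F]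

/-- The frozen `G.PowV` gives `PowVU` for a function which is a unit of a valuation ring `W ⊇ V`
in which `w` is not invertible. -/
theorem powVU_of_powV {w : R} {V W : ValuationSubring F} (hVW : ∀ z : F, z ∈ V → z ∈ W)
    (hwW : (algebraMap R F w)⁻¹ ∉ W) {m : ℕ} (hm : 0 < m) {u : F} (hu0 : u ≠ 0)
    (hui : u⁻¹ ∈ W) (h : Fermat.Agent.S35.G.PowV w V m u) : PowVU w V m u := by
  obtain ⟨g, hg, hgi, hgu⟩ := h
  refine ⟨g, ?_, hg, hgi, hgu⟩
  rintro rfl
  apply hwW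
  rw [zero_pow hm.ne', sub_zero] at hgu
  have e : (algebraMap R F w)⁻¹ = u⁻¹ * (u * (algebraMap R F w)⁻¹) := by
    rw [← mul_assoc, inv_mul_cancel₀ hu0, one_mul]
  rw [e]
  exact W.mul_mem _ _ hui (hVW _ hgu)

/-- `ψ f / f` is a unit of a `ψ`-stable discrete valuation ring `W` with uniformiser `w`,
`ψ w = w t`, `t ∈ Rˣ`. -/
theorem frobSub_one_unit {w : R} {W : ValuationSubring F} (ψ : F ≃+* F)
    (hψW : ∀ z : F, ψ z ∈ W ↔ z ∈ W) (t t' : R)
    (hψw : ψ (algebraMap R F w) = algebraMap R F w * algebraMap R F t) (htt' : t * t' = 1)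
    (hRW : ∀ r : R, algebraMap R F r ∈ W) (hw0 : algebraMap R F w ≠ 0)
    (hdvr : ∀ f : F, f ≠ 0 → ∃ (k l : ℕ) (ε : F), ε ∈ W ∧ ε⁻¹ ∈ W ∧
      f * algebraMap R F w ^ k = algebraMap R F w ^ l * ε)
    {f : F} (hf : f ≠ 0) : ψ f * f⁻¹ ∈ W ∧ (ψ f * f⁻¹)⁻¹ ∈ W := by
  obtain ⟨k, l, ε, hε, hεi, h⟩ := hdvr f hf
  have hε0 : ε ≠ 0 := by
    rintro rfl
    rw [mul_zero] at h
    exact (mul_ne_zero hf (pow_ne_zero _ hw0)) h
  have hT : algebraMap R F t * algebraMap R F t' = 1 := by rw [← map_mul, htt', map_one]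
  have hT0 : algebraMap R F t ≠ 0 := left_ne_zero_of_mul_eq_one hT
  have hT'0 : algebraMap R F t' ≠ 0 := right_ne_zero_of_mul_eq_one hT
  have hTk : ∀ j : ℕ, algebraMap R F t ^ j * algebraMap R F t' ^ j = 1 := fun j => by
    rw [← mul_pow, hT, one_pow]
  have hψ : ψ f * (algebraMap R F w * algebraMap R F t) ^ k
      = (algebraMap R F w * algebraMap R F t) ^ l * ψ ε := by
    have := congrArg ψ h
    rwa [map_mul, map_mul, map_pow, map_pow, hψw] at this
  have hψε0 : ψ ε ≠ 0 := (map_ne_zero ψ).2 hε0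
  have hψf0 : ψ f ≠ 0 := (map_ne_zero ψ).2 hf
  have hc : algebraMap R F w ^ l * (algebraMap R F w * algebraMap R F t) ^ k ≠ 0 :=
    mul_ne_zero (pow_ne_zero _ hw0) (pow_ne_zero _ (mul_ne_zero hw0 hT0))
  have e1 : ψ f * f⁻¹
      = algebraMap R F t ^ l * algebraMap R F t' ^ k * ψ ε * ε⁻¹ := by
    have key : ψ f * ε = algebraMap R F t ^ l * algebraMap R F t' ^ k * ψ ε * f := by
      apply mul_right_cancel₀ hc
      linear_combination (ε * algebraMap R F w ^ l) * hψ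
        - (algebraMap R F t ^ l * algebraMap R F t' ^ k * algebraMap R F t ^ k * ψ ε
            * algebraMap R F w ^ l) * h
        - (algebraMap R F t ^ l * ψ ε * algebraMap R F w ^ (2 * l) * ε) * hTk k
    field_simp
    linear_combination key
  have e2 : (ψ f * f⁻¹)⁻¹
      = algebraMap R F t' ^ l * algebraMap R F t ^ k * ψ ε⁻¹ * ε := by
    rw [e1, map_inv₀]
    have h1 := hTk l
    have h2 := hTk k
    field_simp
    linear_combination (-(algebraMap R F t ^ k * algebraMap R F t' ^ k)) * h1 - h2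
  have hmemR : ∀ (r : R) (j : ℕ), algebraMap R F r ^ j ∈ W := fun r j => W.pow_mem (hRW r) j
  constructor
  · rw [e1]
    exact W.mul_mem _ _ (W.mul_mem _ _ (W.mul_mem _ _ (hmemR t l) (hmemR t' k))
      ((hψW ε).2 hε)) hεi
  · rw [e2]
    exact W.mul_mem _ _ (W.mul_mem _ _ (W.mul_mem _ _ (hmemR t' l) (hmemR t k))
      ((hψW ε⁻¹).2 hεi)) hε

end Unit

section Data

variable {R E F : Type*} [CommRing R] [IsDomain R] [IsDiscreteValuationRing R]
  [Field E] [CharZero E] [Algebra R E] [IsFractionRing R E]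
  [Field F] [Algebra E F] [Algebra R F] [IsScalarTower R E F]

/-- The local rings `W₁ = B_{p₁}`, `W₂ = B_{p₂}` of the two components of the finite chart, in the
setting of `G.AlgFrobStatement`: they contain `V₁`, `V₂`, satisfy `ValCtx`, are `ψ`-stable and
are discrete valuation rings with uniformiser `w`. -/
theorem exists_locData_of_cut (w : R) (hw : Irreducible w) (x : F) (hx : Transcendental E x)
    (hfin : FiniteDimensional (IntermediateField.adjoin E ({x} : Set F)) F)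
    (hconst : ∀ f : F, IsAlgebraic E f → f ∈ (algebraMap E F).range)
    (Bf : Subalgebra R F)
    (hBf : ∀ f : F, f ∈ Bf ↔ IsIntegral (Algebra.adjoin R ({x} : Set F)) f)
    (cf : A2.SSChart w Bf) (V₁ V₂ : ValuationSubring F) (hcutf : CutBy w Bf cf V₁ V₂)
    (ψ : F ≃+* F) (ψR : R ≃+* R)
    (hψR : ∀ r : R, ψ (algebraMap R F r) = algebraMap R F (ψR r)) (hψx : ψ x = x)
    (hψV₁ : ∀ f ∈ V₁, ψ f ∈ V₁) (hψV₂ : ∀ f ∈ V₂, ψ f ∈ V₂) :
    ∃ W₁ W₂ : ValuationSubring F, ValCtx w x W₁ ∧ ValCtx w x W₂ ∧ W₁ ≠ W₂ ∧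
      (∀ z : F, ψ z ∈ W₁ ↔ z ∈ W₁) ∧ (∀ z : F, ψ z ∈ W₂ ↔ z ∈ W₂) ∧
      (∀ z : F, z ∈ V₁ → z ∈ W₁) ∧ (∀ z : F, z ∈ V₂ → z ∈ W₂) ∧
      (∀ f : F, f ≠ 0 → ∃ (k l : ℕ) (ε : F), ε ∈ W₁ ∧ ε⁻¹ ∈ W₁ ∧
        f * algebraMap R F w ^ k = algebraMap R F w ^ l * ε) ∧
      (∀ f : F, f ≠ 0 → ∃ (k l : ℕ) (ε : F), ε ∈ W₂ ∧ ε⁻¹ ∈ W₂ ∧
        f * algebraMap R F w ^ k = algebraMap R F w ^ l * ε) := by
  have hCf : ChartCtx E w x Bf := ⟨hw, hx, hfin, hconst, hBf⟩
  have hpr₁ := cf.prime₁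
  have hpr₂ := cf.prime₂
  have hAB := adjoin_le_of_ctx hCf
  -- `ψ` preserves the chart
  have hψB : ∀ b : F, b ∈ Bf → ψ b ∈ Bf := fun b hb => phi_mem_chart ψ ψR hψR hψx Bf hBf hb
  have hψR' : ∀ r : R, ψ.symm (algebraMap R F r) = algebraMap R F (ψR.symm r) := by
    intro r
    rw [RingEquiv.symm_apply_eq, hψR, RingEquiv.apply_symm_apply]
  have hψx' : ψ.symm x = x := by rw [RingEquiv.symm_apply_eq, hψx]
  have hψB' : ∀ b : F, ψ b ∈ Bf → b ∈ Bf := fun b hb => by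
    have := phi_mem_chart ψ.symm ψR.symm hψR' hψx' Bf hBf hb
    rwa [RingEquiv.symm_apply_apply] at this
  -- the local rings of the two components
  let D₁ := compData₁ hCf cf
  let D₂ := compData₂ hCf cf
  let W₁ : ValuationSubring F := D₁.valuationSubring hAB
  let W₂ : ValuationSubring F := D₂.valuationSubring hAB
  have hW₁ : ValCtx w x W₁ := valCtx_locAt w x Bf hCf D₁
  have hW₂ : ValCtx w x W₂ := valCtx_locAt w x Bf hCf D₂
  have hne : W₁ ≠ W₂ := by
    intro heq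
    obtain ⟨t, ht2, ht1⟩ := SetLike.not_le_iff_exists.1 cf.not_le₂₁
    have h1 : (t : F)⁻¹ ∈ W₁ :=
      ⟨t, ht1, by rw [mul_inv_cancel₀ (coe_ne_zero_of_not_mem ht1)]; exact Bf.one_mem⟩
    rw [heq] at h1
    obtain ⟨s, hs, hst⟩ := h1
    apply hs
    have e : s = ⟨(s : F) * (t : F)⁻¹, hst⟩ * t := by
      apply Subtype.ext
      push_cast
      rw [mul_assoc, inv_mul_cancel₀ (coe_ne_zero_of_not_mem ht1), mul_one]
    rw [e]
    exact cf.p₂.mul_mem_left _ ht2
  have hmap₁ := restrictHom_mem_iff_of_cut w x Bf hCf cf.inf_eq cf.not_le₂₁ V₁ hcutf.le₁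
    hcutf.cut₁ ψ ψR hψR hψB hψB' hψV₁
  have hmap₂ := restrictHom_mem_iff_of_cut w x Bf hCf (by rw [inf_comm]; exact cf.inf_eq)
    cf.not_le₁₂ V₂ hcutf.le₂ hcutf.cut₂ ψ ψR hψR hψB hψB' hψV₂
  have hψW₁ : ∀ z : F, ψ z ∈ W₁ ↔ z ∈ W₁ := phi_mem_locAt_iff ψ hψB hψB' hmap₁
  have hψW₂ : ∀ z : F, ψ z ∈ W₂ ↔ z ∈ W₂ := phi_mem_locAt_iff ψ hψB hψB' hmap₂
  have hV₁W₁ : ∀ z : F, z ∈ V₁ → z ∈ W₁ := le_locAt_of_cut D₁ hAB V₁ hcutf.le₁ hcutf.cut₁
  have hV₂W₂ : ∀ z : F, z ∈ V₂ → z ∈ W₂ := le_locAt_of_cut D₂ hAB V₂ hcutf.le₂ hcutf.cut₂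
  exact ⟨W₁, W₂, hW₁, hW₂, hne, hψW₁, hψW₂, hV₁W₁, hV₂W₂,
    fun f hf => D₁.exists_zpow_mul hAB hf, fun f hf => D₂.exists_zpow_mul hAB hf⟩

end Data

/-- **ALG-FROB, corrected interface**: `G.AlgFrobStatement` VERBATIM with `G.PowV` replaced by
`PowVU` (the root `g` is required to be nonzero). -/
def AlgFrobStatementU : Prop :=
  ∀ {R E F : Type} [CommRing R] [IsDomain R] [IsDiscreteValuationRing R] [HenselianLocalRing R]
    [IsAlgClosed (IsLocalRing.ResidueField R)]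
    [Field E] [CharZero E] [Algebra R E] [IsFractionRing R E]
    [Field F] [Algebra E F] [Algebra R F] [IsScalarTower R E F]
    (w : R) (_ : Irreducible w) (q m Q : ℕ) (_ : q.Prime)
    (_ : (q : R) ∈ IsLocalRing.maximalIdeal R) (_ : 0 < m) (_ : ¬ q ∣ m)
    (x : F) (_ : Transcendental E x)
    (_ : FiniteDimensional (IntermediateField.adjoin E ({x} : Set F)) F)
    (_ : ∀ f : F, IsAlgebraic E f → f ∈ (algebraMap E F).range)
    (Bf Bi : Subalgebra R F)
    (_ : ∀ f : F, f ∈ Bf ↔ IsIntegral (Algebra.adjoin R ({x} : Set F)) f)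
    (_ : ∀ f : F, f ∈ Bi ↔ IsIntegral (Algebra.adjoin R ({x⁻¹} : Set F)) f)
    (cf : A2.SSChart w Bf) (ci : A2.SSChart w Bi)
    (_ : A2.SepCoord R E x Bf) (_ : A2.SepCoord R E x⁻¹ Bi)
    (V₁ V₂ : ValuationSubring F) (_ : CutBy w Bf cf V₁ V₂) (_ : CutBy w Bi ci V₁ V₂)
    (ψ : F ≃+* F) (ψE : E ≃+* E) (ψR : R ≃+* R)
    (_ : ∀ e : E, ψ (algebraMap E F e) = algebraMap E F (ψE e))
    (_ : ∀ r : R, ψE (algebraMap R E r) = algebraMap R E (ψR r))
    (_ : ψ x = x)
    (_ : ∀ r : R, ψR r - r ^ Q ∈ IsLocalRing.maximalIdeal R)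
    (_ : ∀ f ∈ V₁, ψ f ∈ V₁) (_ : ∀ f ∈ V₂, ψ f ∈ V₂)
    (_ : NodeStable Bf cf ψ) (_ : NodeStable Bi ci ψ),
    ∀ h : F, h ≠ 0 → A2.DivisibleDiv E m h → PowVU w V₁ m h → PowVU w V₂ m h →
      ∃ y : F, y ≠ 0 ∧ ψ h = y ^ m * h ^ Q

/-- **ALG-FROB from the three leaves of the A2 wall.** -/
theorem algFrobU_of_leaves (hPS : H34.PuritySmoothLeaf) (hPN : H34.PurityNodeLeaf)
    (hG : H34.GlueLeaf) : AlgFrobStatementU := by
  intro R E F _ _ _ _ _ _ _ _ _ _ _ _ _ w hw q m Q hq hqR hm hqm x hx hfin hconst Bf Bi hBf hBi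
    cf ci sf si V₁ V₂ hcutf hcuti ψ ψE ψR hψE hψER hψx hfrob hψV₁ hψV₂ hnodef hnodei h hh hdiv
    hp₁ hp₂
  have hψR : ∀ r : R, ψ (algebraMap R F r) = algebraMap R F (ψR r) := by
    intro r
    rw [IsScalarTower.algebraMap_apply R E F, hψE, hψER, ← IsScalarTower.algebraMap_apply]
  -- `Q > 0`
  have hQ : 0 < Q := by
    rcases Nat.eq_zero_or_pos Q with rfl | hQ
    · exfalso
      have := hfrob 0
      rw [map_zero, pow_zero, zero_sub] at this
      have h1 : (1 : R) ∈ IsLocalRing.maximalIdeal R := by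
        have := (IsLocalRing.maximalIdeal R).neg_mem this
        rwa [neg_neg] at this
      exact (IsLocalRing.maximalIdeal.isMaximal R).ne_top ((Ideal.eq_top_iff_one _).2 h1)
    · exact hQ
  have hfrob' : ∀ r : R, ∃ s : R, ψR r - r ^ Q = w * s := by
    intro r
    have := hfrob r
    rw [hw.maximalIdeal_eq, Ideal.mem_span_singleton] at this
    exact this
  obtain ⟨W₁, W₂, hW₁, hW₂, hne, hψW₁, hψW₂, hV₁W₁, hV₂W₂, -, -⟩ :=
    exists_locData_of_cut (E := E) w hw x hx hfin hconst Bf hBf cf V₁ V₂ hcutf ψ ψR hψR hψx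
      hψV₁ hψV₂
  exact frobToricVal_of_leaves hPS hPN hG w hw q m hq hqR hm hqm x hx hfin hconst Bf Bi hBf hBi
    cf ci sf si W₁ W₂ hW₁ hW₂ hne ψ ψE ψR Q hQ hψE hψER hfrob' hψx hψW₁ hψW₂
    (fun n hn h1 h2 b hb hb' => hnodef n hn h1 h2 b hb ⟨ψ b, hb'⟩ rfl)
    (fun n hn h1 h2 b hb hb' => hnodei n hn h1 h2 b hb ⟨ψ b, hb'⟩ rfl)
    h hh hdiv (gSplitV_of_powVU hV₁W₁ hW₁.hw hW₁.hR hp₁) (gSplitV_of_powVU hV₂W₂ hW₂.hw hW₂.hR hp₂)

/-- **ALG-FROB, second corrected interface**: `G.AlgFrobStatement` VERBATIM (with the frozen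
`G.PowV`), for the functions `h = ψ u / u = G.frobSub ψ 1 u`, `u ≠ 0`. -/
def AlgFrobStatementT : Prop :=
  ∀ {R E F : Type} [CommRing R] [IsDomain R] [IsDiscreteValuationRing R] [HenselianLocalRing R]
    [IsAlgClosed (IsLocalRing.ResidueField R)]
    [Field E] [CharZero E] [Algebra R E] [IsFractionRing R E]
    [Field F] [Algebra E F] [Algebra R F] [IsScalarTower R E F]
    (w : R) (_ : Irreducible w) (q m Q : ℕ) (_ : q.Prime)
    (_ : (q : R) ∈ IsLocalRing.maximalIdeal R) (_ : 0 < m) (_ : ¬ q ∣ m)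
    (x : F) (_ : Transcendental E x)
    (_ : FiniteDimensional (IntermediateField.adjoin E ({x} : Set F)) F)
    (_ : ∀ f : F, IsAlgebraic E f → f ∈ (algebraMap E F).range)
    (Bf Bi : Subalgebra R F)
    (_ : ∀ f : F, f ∈ Bf ↔ IsIntegral (Algebra.adjoin R ({x} : Set F)) f)
    (_ : ∀ f : F, f ∈ Bi ↔ IsIntegral (Algebra.adjoin R ({x⁻¹} : Set F)) f)
    (cf : A2.SSChart w Bf) (ci : A2.SSChart w Bi)
    (_ : A2.SepCoord R E x Bf) (_ : A2.SepCoord R E x⁻¹ Bi)
    (V₁ V₂ : ValuationSubring F) (_ : CutBy w Bf cf V₁ V₂) (_ : CutBy w Bi ci V₁ V₂)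
    (ψ : F ≃+* F) (ψE : E ≃+* E) (ψR : R ≃+* R)
    (_ : ∀ e : E, ψ (algebraMap E F e) = algebraMap E F (ψE e))
    (_ : ∀ r : R, ψE (algebraMap R E r) = algebraMap R E (ψR r))
    (_ : ψ x = x)
    (_ : ∀ r : R, ψR r - r ^ Q ∈ IsLocalRing.maximalIdeal R)
    (_ : ∀ f ∈ V₁, ψ f ∈ V₁) (_ : ∀ f ∈ V₂, ψ f ∈ V₂)
    (_ : NodeStable Bf cf ψ) (_ : NodeStable Bi ci ψ),
    ∀ u : F, u ≠ 0 → A2.DivisibleDiv E m (Fermat.Agent.S35.G.frobSub ψ 1 u) →
      Fermat.Agent.S35.G.PowV w V₁ m (Fermat.Agent.S35.G.frobSub ψ 1 u) →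
      Fermat.Agent.S35.G.PowV w V₂ m (Fermat.Agent.S35.G.frobSub ψ 1 u) →
      ∃ y : F, y ≠ 0 ∧ ψ (Fermat.Agent.S35.G.frobSub ψ 1 u)
        = y ^ m * (Fermat.Agent.S35.G.frobSub ψ 1 u) ^ Q

/-- **ALG-FROB (form T) from the three leaves of the A2 wall.** -/
theorem algFrobT_of_leaves (hPS : H34.PuritySmoothLeaf) (hPN : H34.PurityNodeLeaf)
    (hG : H34.GlueLeaf) : AlgFrobStatementT := by
  intro R E F _ _ _ _ _ _ _ _ _ _ _ _ _ w hw q m Q hq hqR hm hqm x hx hfin hconst Bf Bi hBf hBi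
    cf ci sf si V₁ V₂ hcutf hcuti ψ ψE ψR hψE hψER hψx hfrob hψV₁ hψV₂ hnodef hnodei u hu hdiv
    hp₁ hp₂
  have hψR : ∀ r : R, ψ (algebraMap R F r) = algebraMap R F (ψR r) := by
    intro r
    rw [IsScalarTower.algebraMap_apply R E F, hψE, hψER, ← IsScalarTower.algebraMap_apply]
  obtain ⟨W₁, W₂, hW₁, hW₂, hne, hψW₁, hψW₂, hV₁W₁, hV₂W₂, hd₁, hd₂⟩ :=
    exists_locData_of_cut (E := E) w hw x hx hfin hconst Bf hBf cf V₁ V₂ hcutf ψ ψR hψR hψx
      hψV₁ hψV₂
  have hw0 : algebraMap R F w ≠ 0 := by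
    intro h
    exact hw.ne_zero (H34.algebraMap_RF_injective (R := R) (F := F) E (by rw [h, map_zero]))
  -- `ψR w = w t`, `t` a unit
  have hmax : ∀ (e : R ≃+* R), ∃ t : R, e w = w * t := by
    intro e
    have h1 : e w ∈ IsLocalRing.maximalIdeal R := by
      rw [IsLocalRing.mem_maximalIdeal, mem_nonunits_iff]
      intro hu'
      apply hw.not_isUnit
      have := hu'.map e.symm
      rwa [RingEquiv.symm_apply_apply] at this
    rw [hw.maximalIdeal_eq, Ideal.mem_span_singleton] at h1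
    exact h1
  obtain ⟨t, ht⟩ := hmax ψR
  obtain ⟨t₁, ht₁⟩ := hmax ψR.symm
  have htt : t * ψR t₁ = 1 := by
    have h1 : ψR (ψR.symm w) = w := ψR.apply_symm_apply w
    rw [ht₁, map_mul, ht] at h1
    have h2 : w * (t * ψR t₁) = w * 1 := by rw [mul_one, ← mul_assoc]; exact h1
    exact mul_left_cancel₀ hw.ne_zero h2
  have hψw : ψ (algebraMap R F w) = algebraMap R F w * algebraMap R F t := by
    rw [hψR, ht, map_mul]
  have hunit₁ := frobSub_one_unit ψ hψW₁ t (ψR t₁) hψw htt hW₁.hR hw0 hd₁ hu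
  have hunit₂ := frobSub_one_unit ψ hψW₂ t (ψR t₁) hψw htt hW₂.hR hw0 hd₂ hu
  have hfs : Fermat.Agent.S35.G.frobSub ψ 1 u = ψ u * u⁻¹ := by
    unfold Fermat.Agent.S35.G.frobSub
    rw [pow_one]
  have hh0 : Fermat.Agent.S35.G.frobSub ψ 1 u ≠ 0 := by
    rw [hfs]
    exact mul_ne_zero ((map_ne_zero ψ).2 hu) (inv_ne_zero hu)
  rw [← hfs] at hunit₁ hunit₂
  exact algFrobU_of_leaves hPS hPN hG w hw q m Q hq hqR hm hqm x hx hfin hconst Bf Bi hBf hBi
    cf ci sf si V₁ V₂ hcutf hcuti ψ ψE ψR hψE hψER hψx hfrob hψV₁ hψV₂ hnodef hnodei _ hh0 hdiv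
    (powVU_of_powV hV₁W₁ hW₁.hw hm hh0 hunit₁.2 hp₁)
    (powVU_of_powV hV₂W₂ hW₂.hw hm hh0 hunit₂.2 hp₂)

end Fermat.Agent.S35.H433
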