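import Fermat.Agent.A2.Alg.H609.ChartFacts

/-!
# S35 / (G) — closed points of the special fibre of a chart have residue field `R / w` (helper433)

`exists_const_sub_mem` : `R` a discrete valuation ring with algebraically closed residue field,
`B` a chart (integral closure of `R[x]` in `F`), `n` a maximal ideal of `B` containing `w`.  Then
every `b ∈ B` is congruent modulo `n` to a constant `r ∈ R`.
-/

set_option autoImplicit false

namespace Fermat.Agent.S35.H433

open Polynomial Fermat.Agent.A2 Fermat.Agent.A2.Alg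

/-- A field `κ` which is integral over `k[X]` (`k` algebraically closed) via a ring homomorphism
`ψ` is equal to the image of `k`. -/
theorem surjective_of_isIntegral_polynomial {k κ : Type*} [Field k] [IsAlgClosed k] [Field κ]
    (ψ : k[X] →+* κ) (hψ : ψ.IsIntegral) : Function.Surjective (ψ.comp C) := by
  have hmax : ((⊥ : Ideal κ).comap ψ).IsMaximal :=
    Ideal.isMaximal_comap_of_isIntegral_of_isMaximal' ψ hψ ⊥
  set P : Ideal k[X] := (⊥ : Ideal κ).comap ψ with hP
  have h₁ : ((Ideal.Quotient.mk P).comp C).IsIntegral :=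
    Polynomial.quotient_mk_comp_C_isIntegral_of_isJacobsonRing P
  let ψb : k[X] ⧸ P →+* κ := Ideal.Quotient.lift P ψ (fun a ha => by
    rw [hP, Ideal.mem_comap, Ideal.mem_bot] at ha
    exact ha)
  have hcomp : ψb.comp (Ideal.Quotient.mk P) = ψ := by
    ext <;> simp [ψb]
  have h₂ : ψb.IsIntegral := by
    apply RingHom.IsIntegral.tower_top (Ideal.Quotient.mk P) ψb
    rw [hcomp]
    exact hψ
  have h₃ : (ψ.comp C).IsIntegral := by
    have : ψ.comp C = ψb.comp ((Ideal.Quotient.mk P).comp C) := by
      rw [← RingHom.comp_assoc, hcomp]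
    rw [this]
    exact RingHom.IsIntegral.trans _ _ h₁ h₂
  exact (IsAlgClosed.ringHom_bijective_of_isIntegral (ψ.comp C) h₃).2

variable {R E F : Type*} [CommRing R] [IsDomain R] [IsDiscreteValuationRing R]
  [IsAlgClosed (IsLocalRing.ResidueField R)]
  [Field E] [Algebra R E] [Field F] [Algebra E F] [Algebra R F]

/-- **Residue fields of closed points.** -/
theorem exists_const_sub_mem (w : R) (x : F) (B : Subalgebra R F) (hB : ChartCtx E w x B)
    (n : Ideal B) (hn : n.IsMaximal) (hwn : algebraMap R B w ∈ n) (b : B) :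
    ∃ r : R, b - algebraMap R B r ∈ n := by
  let _ : Field (B ⧸ n) := Ideal.Quotient.field n
  let xB : B := ⟨x, H609.self_mem_chart x B hB.hB⟩
  let f : R →+* B ⧸ n := (Ideal.Quotient.mk n).comp (algebraMap R B)
  have hker : ∀ a ∈ IsLocalRing.maximalIdeal R, f a = 0 := by
    intro a ha
    rw [hB.hw.maximalIdeal_eq, Ideal.mem_span_singleton] at ha
    obtain ⟨t, rfl⟩ := ha
    show Ideal.Quotient.mk n (algebraMap R B (w * t)) = 0
    rw [Ideal.Quotient.eq_zero_iff_mem, map_mul]
    exact n.mul_mem_right _ hwn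
  let g : IsLocalRing.ResidueField R →+* B ⧸ n :=
    Ideal.Quotient.lift (IsLocalRing.maximalIdeal R) f hker
  have hg : ∀ r : R, g (IsLocalRing.residue R r) = f r := fun r => rfl
  let ψ : (IsLocalRing.ResidueField R)[X] →+* B ⧸ n :=
    Polynomial.eval₂RingHom g (Ideal.Quotient.mk n xB)
  let φ₀ : R[X] →+* B ⧸ n := (Ideal.Quotient.mk n).comp (aeval (R := R) xB).toRingHom
  have hφ₀ : φ₀.IsIntegral :=
    RingHom.IsIntegral.trans _ _ (H609.isIntegral_aeval_chart x B hB.hB)
      (RingHom.isIntegral_of_surjective _ Ideal.Quotient.mk_surjective)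
  have hcomp : ψ.comp (Polynomial.mapRingHom (IsLocalRing.residue R)) = φ₀ := by
    refine Polynomial.ringHom_ext (fun r => ?_) ?_
    · simp only [RingHom.comp_apply, Polynomial.coe_mapRingHom, Polynomial.map_C, ψ, φ₀,
        Polynomial.coe_eval₂RingHom, Polynomial.eval₂_C, hg, f, AlgHom.toRingHom_eq_coe,
        RingHom.coe_coe, aeval_C]
    · simp only [RingHom.comp_apply, Polynomial.coe_mapRingHom, Polynomial.map_X, ψ, φ₀,
        Polynomial.coe_eval₂RingHom, Polynomial.eval₂_X, AlgHom.toRingHom_eq_coe,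
        RingHom.coe_coe, aeval_X]
  have hψ : ψ.IsIntegral := by
    apply RingHom.IsIntegral.tower_top (Polynomial.mapRingHom (IsLocalRing.residue R)) ψ
    rw [hcomp]
    exact hφ₀
  obtain ⟨c, hc⟩ := surjective_of_isIntegral_polynomial ψ hψ (Ideal.Quotient.mk n b)
  obtain ⟨r, rfl⟩ := IsLocalRing.residue_surjective c
  refine ⟨r, ?_⟩
  rw [← Ideal.Quotient.eq_zero_iff_mem, map_sub, sub_eq_zero, ← hc]
  simp only [RingHom.comp_apply, ψ, Polynomial.coe_eval₂RingHom, Polynomial.eval₂_C, hg, f]

end Fermat.Agent.S35.H433
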