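import Fermat.Agent.S35.H433.FrobToric
import Fermat.Agent.S35.H433.ResField
import Fermat.Agent.A2.Alg.H34.Asm
import Fermat.Agent.A2.H372.NodeLoc

/-!
# S35 / (G) — N4 in statement form (helper433)

`frobToric_of_leaves : PuritySmoothLeaf → PurityNodeLeaf → GlueLeaf → FrobToricStatement`.

`FrobToricStatement` is the analogue of `A2.AlgSSStatement` (Step II) for a semilinear
automorphism `φ` which, instead of being the identity modulo `w`, acts on the constants as the
`Q`-power map modulo `w`, preserves the charts and their components and fixes the crossing points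
of the special fibre: every split Kummer class `u` (`m ∣ div u`) satisfies `φ u = h ^ m · u ^ Q`.

The three leaves are those of the A2 wall (`Fermat/Agent/A2/Alg/H34/Asm.lean`); no new geometric
input is needed.
-/

set_option autoImplicit false

namespace Fermat.Agent.S35.H433

open Fermat.Agent.A2 Fermat.Agent.A2.Alg

/-- **N4 (interface statement)**: the toric Frobenius relation. -/
def FrobToricStatement : Prop :=
  ∀ {R E F : Type} [CommRing R] [IsDomain R] [IsDiscreteValuationRing R] [HenselianLocalRing R]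
    [IsAlgClosed (IsLocalRing.ResidueField R)]
    [Field E] [CharZero E] [Algebra R E] [IsFractionRing R E]
    [Field F] [Algebra E F] [Algebra R F] [IsScalarTower R E F]
    (w : R) (_ : Irreducible w) (q m : ℕ) (_ : q.Prime)
    (_ : (q : R) ∈ IsLocalRing.maximalIdeal R) (_ : 0 < m) (_ : ¬ q ∣ m)
    (x : F) (_ : Transcendental E x)
    (_ : FiniteDimensional (IntermediateField.adjoin E ({x} : Set F)) F)
    (_ : ∀ f : F, IsAlgebraic E f → f ∈ (algebraMap E F).range)
    (Bf Bi : Subalgebra R F)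
    (_ : ∀ f : F, f ∈ Bf ↔ IsIntegral (Algebra.adjoin R ({x} : Set F)) f)
    (_ : ∀ f : F, f ∈ Bi ↔ IsIntegral (Algebra.adjoin R ({x⁻¹} : Set F)) f)
    (cf : SSChart w Bf) (ci : SSChart w Bi)
    (_ : SepCoord R E x Bf) (_ : SepCoord R E x⁻¹ Bi)
    (φ : F ≃+* F) (φE : E ≃+* E) (Q : ℕ) (_ : 0 < Q)
    (_ : ∀ e : E, φ (algebraMap E F e) = algebraMap E F (φE e))
    (hφf : PhiCtx w Bf cf φ Q) (hφi : PhiCtx w Bi ci φ Q)
    (_ : ∀ n : Ideal Bf, n.IsMaximal → cf.p₁ ≤ n → cf.p₂ ≤ n →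
      ∀ b : Bf, b ∈ n → hφf.hom b ∈ n)
    (_ : ∀ n : Ideal Bi, n.IsMaximal → ci.p₁ ≤ n → ci.p₂ ≤ n →
      ∀ b : Bi, b ∈ n → hφi.hom b ∈ n)
    (u : F), u ≠ 0 → DivisibleDiv E m u → IsSplit Bf cf u → IsSplit Bi ci u →
      ∃ h : F, h ≠ 0 ∧ φ u = h ^ m * u ^ Q

section

variable {R E F : Type*} [CommRing R] [IsDomain R] [IsDiscreteValuationRing R]
  [Field E] [CharZero E] [Algebra R E] [IsFractionRing R E]
  [Field F] [Algebra E F] [Algebra R F] [IsScalarTower R E F]

/-- Local transversality at a crossing point of a chart. -/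
theorem exists_mul_mem_sup (w : R) (x : F) (B : Subalgebra R F) (hB : ChartCtx E w x B)
    (c : SSChart w B) (n : Ideal B) (hn : n.IsMaximal) (h1 : c.p₁ ≤ n) (h2 : c.p₂ ≤ n)
    (b : B) (hb : b ∈ n) : ∃ s : B, s ∉ n ∧ s * b ∈ c.p₁ ⊔ c.p₂ := by
  have := hn.isPrime
  have := c.prime₁
  have := c.normal₁
  obtain ⟨hnoeth, -, -⟩ := H34.chart_instances' w x B hB
  have hD : IsDedekindDomain (B ⧸ c.p₁) :=
    H609.isDedekindDomain_quotient_chart w x B hB c.p₁ (mem_w_left c)
  exact H372.exists_mul_mem_of_isRadical (p := c.p₁) le_sup_left (sup_le h1 h2)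
    (fun h => c.not_le₂₁ (le_sup_right.trans h)) c.transversal hb

end

/-- **N4 from the three leaves of the A2 wall.** -/
theorem frobToric_of_leaves (hPS : H34.PuritySmoothLeaf) (hPN : H34.PurityNodeLeaf)
    (hG : H34.GlueLeaf) : FrobToricStatement := by
  intro R E F _ _ _ _ _ _ _ _ _ _ _ _ _ w hw q m hq hqR hm hqm x hx hfin hconst Bf Bi hBf hBi
    cf ci sf si φ φE Q hQ hφE hφf hφi hfixf hfixi u hu hdiv hsf hsi
  have hCf : ChartCtx E w x Bf := ⟨hw, hx, hfin, hconst, hBf⟩
  have hCi : ChartCtx E w x⁻¹ Bi := H34.chartCtx_inv w hw x hx hfin hconst Bi hBi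
  exact frobToric_of_parts m hm w Bf Bi cf ci φ φE Q hQ hφE hφf hφi
    (fun n hn _ _ b => exists_const_sub_mem w x Bf hCf n hn
      ((Ideal.span_singleton_le_iff_mem (I := n)).1
        (by rw [← cf.inf_eq]; exact inf_le_left.trans ‹cf.p₁ ≤ n›)) b)
    (fun n hn _ _ b => exists_const_sub_mem w x⁻¹ Bi hCi n hn
      ((Ideal.span_singleton_le_iff_mem (I := n)).1
        (by rw [← ci.inf_eq]; exact inf_le_left.trans ‹ci.p₁ ≤ n›)) b)
    hfixf hfixi
    (fun n hn h1 h2 b hb => exists_mul_mem_sup w x Bf hCf cf n hn h1 h2 b hb)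
    (fun n hn h1 h2 b hb => exists_mul_mem_sup w x⁻¹ Bi hCi ci n hn h1 h2 b hb)
    u hu hdiv hsf hsi
    (fun n hn hwn => H34.purity_of_leaves hPS hPN q m hq hqR hm hqm w x Bf hCf cf sf u hu hdiv
      hsf n hn hwn)
    (fun n hn hwn => H34.purity_of_leaves hPS hPN q m hq hqR hm hqm w x⁻¹ Bi hCi ci si u hu hdiv
      hsi n hn hwn)
    (fun v hv hdv hf hi => hG q m hq hqR hm hqm w x Bf Bi hCf hCi cf ci
      (H34.incomparable_of_ssChart cf) (H34.incomparable_of_ssChart ci) v hv hdv hf hi)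

end Fermat.Agent.S35.H433
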