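import Fermat.Agent.S35.H433.Ident
import Fermat.Agent.S35.H433.Final

/-!
# S35 / (G) — F1 + F4 in valuation language (helper433)

`frobToric_val` : the toric Frobenius relation `φ u = h ^ m · u ^ Q`, with all hypotheses on the
two components expressed through the two valuation subrings `V₁ ≠ V₂` of `F` extending the Gauss
valuation (A2/MOD: `V∞`, `V₀`) instead of the primes of an `SSChart`:

* `ValCtx w x V` : `R ⊆ V`, `x` is a unit of `V`, `w` is not, and `x - r`, `x⁻¹ - r` are units of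
  `V` for all constants `r`  (the residue of `x` is not constant);
* `φ` preserves `V₁`, `V₂`, fixes `x`, is semilinear over `φR : R ≃+* R` with
  `φR r ≡ r ^ Q mod w`;
* the crossing points of both charts are fixed by `φ`;
* `u` has residues in `kˣ · (κˣ)^m` at `V₁` and `V₂` (`GSplitV`), and `m ∣ div u`.

The charts `Bf`, `Bi` and their `SSChart`s are arbitrary (e.g. from `A2.ModSSData`).
-/

set_option autoImplicit false
set_option linter.unusedSectionVars false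

namespace Fermat.Agent.S35.H433

open Fermat.Agent.A2 Fermat.Agent.A2.Alg Fermat.Agent.A2.H348 Fermat.Agent.A2.Alg.H348

section Defs

variable {R F : Type*} [CommRing R] [Field F] [Algebra R F]

/-- The standing hypotheses on a valuation subring `V` of `F` "extending the Gauss valuation". -/
structure ValCtx (w : R) (x : F) (V : ValuationSubring F) : Prop where
  hR : ∀ r : R, algebraMap R F r ∈ V
  hx : x ∈ V
  hxi : x⁻¹ ∈ V
  hw : (algebraMap R F w)⁻¹ ∉ V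
  hxr : ∀ r : R, (x - algebraMap R F r)⁻¹ ∈ V
  hxir : ∀ r : R, (x⁻¹ - algebraMap R F r)⁻¹ ∈ V

theorem ValCtx.inv {w : R} {x : F} {V : ValuationSubring F} (h : ValCtx w x V) :
    ValCtx w x⁻¹ V :=
  ⟨h.hR, h.hxi, by rw [inv_inv]; exact h.hx, h.hw, h.hxir, by rw [inv_inv]; exact h.hxr⟩

/-- `u` is a unit of `V` with constant residue. -/
def ConstV (R : Type*) [CommRing R] [Algebra R F] (V : ValuationSubring F) (u : F) : Prop :=
  ∃ c₀ : R, IsUnit c₀ ∧ u - algebraMap R F c₀ ∈ V.nonunits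

/-- `u` is a unit of `V` with residue in `kˣ · (κˣ)^m`. -/
def GSplitV (R : Type*) [CommRing R] [Algebra R F] (V : ValuationSubring F) (m : ℕ) (u : F) :
    Prop :=
  ∃ y : F, y ≠ 0 ∧ y ∈ V ∧ y⁻¹ ∈ V ∧ ConstV R V (u * (y ^ m)⁻¹)

/-- The chart is contained in every valuation subring containing `R` and `x`. -/
theorem chart_le_valuationSubring (x : F) (B : Subalgebra R F)
    (hB : ∀ f : F, f ∈ B ↔ IsIntegral (Algebra.adjoin R ({x} : Set F)) f)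
    (V : ValuationSubring F) (hR : ∀ r : R, algebraMap R F r ∈ V) (hx : x ∈ V) (b : B) :
    (b : F) ∈ V := by
  let Vs : Subalgebra R F := { V.toSubring with algebraMap_mem' := hR }
  have hle : Algebra.adjoin R ({x} : Set F) ≤ Vs :=
    Algebra.adjoin_le (Set.singleton_subset_iff.2 hx)
  obtain ⟨P, hPm, hP⟩ := (hB b).1 b.2
  let ι : Algebra.adjoin R ({x} : Set F) →+* V :=
    { toFun := fun a => ⟨a.1, hle a.2⟩
      map_one' := rfl
      map_mul' := fun _ _ => rfl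
      map_zero' := rfl
      map_add' := fun _ _ => rfl }
  have hint : IsIntegral V (b : F) := by
    refine ⟨P.map ι, hPm.map ι, ?_⟩
    rw [Polynomial.eval₂_map]
    exact hP
  obtain ⟨y, hy⟩ := IsIntegrallyClosed.isIntegral_iff.1 hint
  rw [← hy]
  exact y.2

end Defs

section Chart

variable {R E F : Type*} [CommRing R] [IsDomain R] [IsDiscreteValuationRing R]
  [IsAlgClosed (IsLocalRing.ResidueField R)]
  [Field E] [CharZero E] [Algebra R E] [IsFractionRing R E]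
  [Field F] [Algebra E F] [Algebra R F] [IsScalarTower R E F]

/-- Two distinct valuation subrings satisfying `ValCtx` are the local rings of the two components
of a chart, in some order. -/
theorem cutIdeal_perm (w : R) (x : F) (B : Subalgebra R F) (hB : ChartCtx E w x B)
    (c : SSChart w B) (V₁ V₂ : ValuationSubring F) (h₁ : ValCtx w x V₁) (h₂ : ValCtx w x V₂)
    (hne : V₁ ≠ V₂) :
    (cutIdeal V₁ (chart_le_valuationSubring x B hB.hB V₁ h₁.hR h₁.hx) = c.p₁ ∧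
      cutIdeal V₂ (chart_le_valuationSubring x B hB.hB V₂ h₂.hR h₂.hx) = c.p₂) ∨
    (cutIdeal V₁ (chart_le_valuationSubring x B hB.hB V₁ h₁.hR h₁.hx) = c.p₂ ∧
      cutIdeal V₂ (chart_le_valuationSubring x B hB.hB V₂ h₂.hR h₂.hx) = c.p₁) := by
  have hp₁ := c.prime₁
  have hp₂ := c.prime₂
  have hAB := adjoin_le_of_ctx hB
  have hB₁ := chart_le_valuationSubring x B hB.hB V₁ h₁.hR h₁.hx
  have hB₂ := chart_le_valuationSubring x B hB.hB V₂ h₂.hR h₂.hx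
  have same : ∀ {A : Subalgebra R F} {p p' : Ideal B} [p.IsPrime], CompData A B p p' w → A ≤ B →
      cutIdeal V₁ hB₁ = p → cutIdeal V₂ hB₂ = p → False := by
    intro A p p' _ D hA e₁ e₂
    apply hne
    ext z
    rw [mem_iff_mem_locAt D hA V₁ hB₁ h₁.hw e₁ z, mem_iff_mem_locAt D hA V₂ hB₂ h₂.hw e₂ z]
  rcases cutIdeal_eq_or w x B hB c V₁ hB₁ h₁.hw h₁.hxr with e₁ | e₁ <;>
    rcases cutIdeal_eq_or w x B hB c V₂ hB₂ h₂.hw h₂.hxr with e₂ | e₂
  · exact (same (compData₁ hB c) hAB e₁ e₂).elim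
  · exact Or.inl ⟨e₁, e₂⟩
  · exact Or.inr ⟨e₁, e₂⟩
  · exact (same (compData₂ hB c) hAB e₁ e₂).elim

/-- Dictionary for one component: if the cut ideal of `V` is the component `p`, then the chart
predicates at `p` are the valuation predicates at `V`. -/
theorem dict_of_cut (w : R) (x : F) (B : Subalgebra R F) (_hB : ChartCtx E w x B)
    {A : Subalgebra R F} {p p' : Ideal B} [hp : p.IsPrime] (D : CompData A B p p' w)
    (hA : A ≤ B) (V : ValuationSubring F) (hBV : ∀ b : B, (b : F) ∈ V)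
    (hw : (algebraMap R F w)⁻¹ ∉ V) (hcut : cutIdeal V hBV = p) :
    (∀ z : F, z ∈ V ↔ InLoc B p ⊤ z) ∧ (∀ z : F, z ∈ V.nonunits ↔ InLoc B p p z) := by
  have h1 : ∀ z : F, z ∈ V ↔ InLoc B p ⊤ z := fun z => by
    rw [inLoc_top_iff_mem_locAt]
    exact mem_iff_mem_locAt D hA V hBV hw hcut z
  exact ⟨h1, mem_nonunits_iff_inLoc V h1⟩

end Chart

section Dict

variable {R F : Type*} [CommRing R] [Field F] [Algebra R F] {B : Subalgebra R F}

theorem constAt_iff_constV {p : Ideal B} [hp : p.IsPrime] {V : ValuationSubring F}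
    (h : ∀ z : F, z ∈ V.nonunits ↔ InLoc B p p z) {u : F} : ConstAt B p u ↔ ConstV R V u := by
  rw [constAt_iff]
  constructor
  · rintro ⟨c₀, hc, hu⟩
    exact ⟨c₀, hc, (h _).2 hu⟩
  · rintro ⟨c₀, hc, hu⟩
    exact ⟨c₀, hc, (h _).1 hu⟩

theorem gSplitAt_of_gSplitV {p : Ideal B} [hp : p.IsPrime] {V : ValuationSubring F}
    (h1 : ∀ z : F, z ∈ V ↔ InLoc B p ⊤ z) (h : ∀ z : F, z ∈ V.nonunits ↔ InLoc B p p z)
    {m : ℕ} {u : F} (hu : GSplitV R V m u) : GSplitAt B p m u := by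
  obtain ⟨y, hy0, hy, hyi, hc⟩ := hu
  exact ⟨y, locUnit_iff.2 ⟨hy0, (h1 _).1 hy, (h1 _).1 hyi⟩, (constAt_iff_constV h).2 hc⟩

end Dict

section Phi

variable {R F : Type*} [CommRing R] [Field F] [Algebra R F]

/-- `φ` maps the subalgebra `R[x]` into itself. -/
theorem phi_mem_adjoin (φ : F ≃+* F) (φR : R → R)
    (hφR : ∀ r : R, φ (algebraMap R F r) = algebraMap R F (φR r)) {x : F} (hφx : φ x = x)
    {a : F} (ha : a ∈ Algebra.adjoin R ({x} : Set F)) :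
    φ a ∈ Algebra.adjoin R ({x} : Set F) := by
  induction ha using Algebra.adjoin_induction with
  | mem y hy =>
    rw [Set.mem_singleton_iff] at hy
    subst hy
    rw [hφx]
    exact Algebra.self_mem_adjoin_singleton R _
  | algebraMap r =>
    rw [hφR]
    exact Subalgebra.algebraMap_mem _ _
  | add y z _ _ hy hz =>
    rw [map_add]
    exact Subalgebra.add_mem _ hy hz
  | mul y z _ _ hy hz =>
    rw [map_mul]
    exact Subalgebra.mul_mem _ hy hz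

/-- `φ` maps a chart into itself. -/
theorem phi_mem_chart (φ : F ≃+* F) (φR : R → R)
    (hφR : ∀ r : R, φ (algebraMap R F r) = algebraMap R F (φR r)) {x : F} (hφx : φ x = x)
    (B : Subalgebra R F)
    (hB : ∀ f : F, f ∈ B ↔ IsIntegral (Algebra.adjoin R ({x} : Set F)) f) {b : F} (hb : b ∈ B) :
    φ b ∈ B := by
  rw [hB] at hb ⊢
  obtain ⟨P, hPm, hP⟩ := hb
  let ψ : Algebra.adjoin R ({x} : Set F) →+* Algebra.adjoin R ({x} : Set F) :=
    { toFun := fun a => ⟨φ a.1, phi_mem_adjoin φ φR hφR hφx a.2⟩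
      map_one' := Subtype.ext (by simp)
      map_mul' := fun a b => Subtype.ext (by simp)
      map_zero' := Subtype.ext (by simp)
      map_add' := fun a b => Subtype.ext (by simp) }
  refine ⟨P.map ψ, hPm.map ψ, ?_⟩
  rw [Polynomial.eval₂_map]
  have hcomp : (algebraMap (Algebra.adjoin R ({x} : Set F)) F).comp ψ
      = (φ : F →+* F).comp (algebraMap (Algebra.adjoin R ({x} : Set F)) F) := by
    ext a
    rfl
  rw [hcomp]
  have h := Polynomial.hom_eval₂ P (algebraMap (Algebra.adjoin R ({x} : Set F)) F)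
    (φ : F →+* F) b
  rw [hP, map_zero] at h
  exact h.symm

/-- `φ` preserving `V` preserves its non-units. -/
theorem phi_mem_nonunits_iff (φ : F ≃+* F) (V : ValuationSubring F)
    (hV : ∀ z : F, φ z ∈ V ↔ z ∈ V) (z : F) : φ z ∈ V.nonunits ↔ z ∈ V.nonunits := by
  rw [ValuationSubring.mem_nonunits_iff_or, ValuationSubring.mem_nonunits_iff_or, ← map_inv₀, hV,
    map_eq_zero_iff φ φ.injective]

end Phi

section Main

variable {R E F : Type*} [CommRing R] [IsDomain R] [IsDiscreteValuationRing R]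
  [IsAlgClosed (IsLocalRing.ResidueField R)]
  [Field E] [CharZero E] [Algebra R E] [IsFractionRing R E]
  [Field F] [Algebra E F] [Algebra R F] [IsScalarTower R E F]

/-- For each component of a chart, one of `V₁`, `V₂` is its local ring. -/
theorem exists_dict (w : R) (x : F) (B : Subalgebra R F) (hB : ChartCtx E w x B)
    (c : SSChart w B) (V₁ V₂ : ValuationSubring F) (h₁ : ValCtx w x V₁) (h₂ : ValCtx w x V₂)
    (hne : V₁ ≠ V₂) :
    (((∀ z : F, z ∈ V₁ ↔ InLoc B c.p₁ ⊤ z) ∧ (∀ z : F, z ∈ V₁.nonunits ↔ InLoc B c.p₁ c.p₁ z)) ∧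
      ((∀ z : F, z ∈ V₂ ↔ InLoc B c.p₂ ⊤ z) ∧ (∀ z : F, z ∈ V₂.nonunits ↔ InLoc B c.p₂ c.p₂ z))) ∨
    (((∀ z : F, z ∈ V₁ ↔ InLoc B c.p₂ ⊤ z) ∧ (∀ z : F, z ∈ V₁.nonunits ↔ InLoc B c.p₂ c.p₂ z)) ∧
      ((∀ z : F, z ∈ V₂ ↔ InLoc B c.p₁ ⊤ z) ∧
        (∀ z : F, z ∈ V₂.nonunits ↔ InLoc B c.p₁ c.p₁ z))) := by
  have hp₁ := c.prime₁
  have hp₂ := c.prime₂
  have hAB := adjoin_le_of_ctx hB
  rcases cutIdeal_perm w x B hB c V₁ V₂ h₁ h₂ hne with ⟨e₁, e₂⟩ | ⟨e₁, e₂⟩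
  · exact Or.inl ⟨dict_of_cut w x B hB (compData₁ hB c) hAB V₁ _ h₁.hw e₁,
      dict_of_cut w x B hB (compData₂ hB c) hAB V₂ _ h₂.hw e₂⟩
  · exact Or.inr ⟨dict_of_cut w x B hB (compData₂ hB c) hAB V₁ _ h₁.hw e₁,
      dict_of_cut w x B hB (compData₁ hB c) hAB V₂ _ h₂.hw e₂⟩

/-- Constant residues at `V₁`, `V₂`  ⟹  split on any chart. -/
theorem isSplit_of_constV (w : R) (x : F) (B : Subalgebra R F) (hB : ChartCtx E w x B)
    (c : SSChart w B) (V₁ V₂ : ValuationSubring F) (h₁ : ValCtx w x V₁) (h₂ : ValCtx w x V₂)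
    (hne : V₁ ≠ V₂) {u : F} (hu₁ : ConstV R V₁ u) (hu₂ : ConstV R V₂ u) : IsSplit B c u := by
  have hp₁ := c.prime₁
  have hp₂ := c.prime₂
  rcases exists_dict w x B hB c V₁ V₂ h₁ h₂ hne with ⟨⟨-, d₁⟩, ⟨-, d₂⟩⟩ | ⟨⟨-, d₁⟩, ⟨-, d₂⟩⟩
  · exact ⟨(constAt_iff_constV d₁).2 hu₁, (constAt_iff_constV d₂).2 hu₂⟩
  · exact ⟨(constAt_iff_constV d₂).2 hu₂, (constAt_iff_constV d₁).2 hu₁⟩

/-- `φ` preserves the components of a chart. -/
theorem phiCtx_of_val (w : R) (x : F) (B : Subalgebra R F) (hB : ChartCtx E w x B)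
    (c : SSChart w B) (V₁ V₂ : ValuationSubring F) (h₁ : ValCtx w x V₁) (h₂ : ValCtx w x V₂)
    (hne : V₁ ≠ V₂) (φ : F ≃+* F) (φR : R ≃+* R) (Q : ℕ)
    (hφR : ∀ r : R, φ (algebraMap R F r) = algebraMap R F (φR r))
    (hQ : ∀ r : R, ∃ s : R, φR r - r ^ Q = w * s) (hφx : φ x = x)
    (hV₁ : ∀ z : F, φ z ∈ V₁ ↔ z ∈ V₁) (hV₂ : ∀ z : F, φ z ∈ V₂ ↔ z ∈ V₂) :
    PhiCtx w B c φ Q := by
  have hp₁ := c.prime₁
  have hp₂ := c.prime₂
  have hmap : ∀ b : F, b ∈ B → φ b ∈ B := fun b hb => phi_mem_chart φ φR hφR hφx B hB.hB hb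
  have hφR' : ∀ r : R, φ.symm (algebraMap R F r) = algebraMap R F (φR.symm r) := by
    intro r
    rw [RingEquiv.symm_apply_eq, hφR, RingEquiv.apply_symm_apply]
  have hφx' : φ.symm x = x := by
    rw [RingEquiv.symm_apply_eq, hφx]
  have hmap' : ∀ b : F, φ b ∈ B → b ∈ B := fun b hb => by
    have := phi_mem_chart φ.symm φR.symm hφR' hφx' B hB.hB hb
    rwa [RingEquiv.symm_apply_apply] at this
  have key : ∀ (p : Ideal B) [p.IsPrime] (V : ValuationSubring F),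
      (∀ z : F, φ z ∈ V ↔ z ∈ V) → (∀ z : F, z ∈ V.nonunits ↔ InLoc B p p z) →
      ∀ b : B, (⟨φ b, hmap b b.2⟩ : B) ∈ p ↔ b ∈ p := by
    intro p _ V hV d b
    have e : ∀ b' : B, b' ∈ p ↔ (b' : F) ∈ V.nonunits := by
      intro b'
      rw [d]
      constructor
      · intro hb'
        exact inLoc_coe hb'
      · rintro ⟨a, s, ha, hs, has⟩
        have h1 : b' * s = a := Subtype.ext (by push_cast; exact has)
        have h2 : b' * s ∈ p := by rw [h1]; exact ha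
        exact (‹p.IsPrime›.mem_or_mem h2).resolve_right hs
    rw [e, e]
    exact phi_mem_nonunits_iff φ V hV _
  refine ⟨hmap, hmap', ?_, ?_, ?_⟩
  · rcases exists_dict w x B hB c V₁ V₂ h₁ h₂ hne with ⟨⟨-, d₁⟩, -⟩ | ⟨-, ⟨-, d₂⟩⟩
    · exact key c.p₁ V₁ hV₁ d₁
    · exact key c.p₁ V₂ hV₂ d₂
  · rcases exists_dict w x B hB c V₁ V₂ h₁ h₂ hne with ⟨-, ⟨-, d₂⟩⟩ | ⟨⟨-, d₁⟩, -⟩
    · exact key c.p₂ V₂ hV₂ d₂
    · exact key c.p₂ V₁ hV₁ d₁
  · intro r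
    obtain ⟨s, hs⟩ := hQ r
    refine ⟨algebraMap R B s, ?_⟩
    rw [hφR, ← map_pow, ← map_sub, hs, map_mul]
    rfl

/-- **F4 in valuation language.**  Residues in `kˣ · (κˣ)^m` at `V₁`, `V₂`  ⟹  constant residues
after division by an `m`-th power. -/
theorem exists_constV_of_gSplitV (w : R) (x : F) (B : Subalgebra R F) (hB : ChartCtx E w x B)
    (c : SSChart w B) (V₁ V₂ : ValuationSubring F) (h₁ : ValCtx w x V₁) (h₂ : ValCtx w x V₂)
    (hne : V₁ ≠ V₂) {m : ℕ} {u : F} (hu₁ : GSplitV R V₁ m u) (hu₂ : GSplitV R V₂ m u) :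
    ∃ G : F, G ≠ 0 ∧ ConstV R V₁ (u * (G ^ m)⁻¹) ∧ ConstV R V₂ (u * (G ^ m)⁻¹) := by
  have hp₁ := c.prime₁
  have hp₂ := c.prime₂
  rcases exists_dict w x B hB c V₁ V₂ h₁ h₂ hne with ⟨⟨a₁, d₁⟩, ⟨a₂, d₂⟩⟩ | ⟨⟨a₁, d₁⟩, ⟨a₂, d₂⟩⟩
  · obtain ⟨G, hG, hs⟩ := exists_isSplit_of_gSplit c (gSplitAt_of_gSplitV a₁ d₁ hu₁)
      (gSplitAt_of_gSplitV a₂ d₂ hu₂)
    exact ⟨G, hG, (constAt_iff_constV d₁).1 hs.1, (constAt_iff_constV d₂).1 hs.2⟩
  · obtain ⟨G, hG, hs⟩ := exists_isSplit_of_gSplit c (gSplitAt_of_gSplitV a₂ d₂ hu₂)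
      (gSplitAt_of_gSplitV a₁ d₁ hu₁)
    exact ⟨G, hG, (constAt_iff_constV d₁).1 hs.2, (constAt_iff_constV d₂).1 hs.1⟩

end Main

section Div

variable {E F : Type*} [Field E] [Field F] [Algebra E F]

theorem divisibleDiv_mul_inv_pow (m : ℕ) (u G : F) (hG : G ≠ 0) (hu : DivisibleDiv E m u) :
    DivisibleDiv E m (u * (G ^ m)⁻¹) := by
  intro V hV hE
  obtain ⟨h, ε, hh, hε, hε', rfl⟩ := hu V hV hE
  refine ⟨h * G⁻¹, ε, mul_ne_zero hh (inv_ne_zero hG), hε, hε', ?_⟩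
  rw [mul_pow, inv_pow]
  ring

end Div

/-- **N4 / F1 + F4 (interface statement, valuation language).** -/
def FrobToricValStatement : Prop :=
  ∀ {R E F : Type} [CommRing R] [IsDomain R] [IsDiscreteValuationRing R] [HenselianLocalRing R]
    [IsAlgClosed (IsLocalRing.ResidueField R)]
    [Field E] [CharZero E] [Algebra R E] [IsFractionRing R E]
    [Field F] [Algebra E F] [Algebra R F] [IsScalarTower R E F]
    (w : R) (_ : Irreducible w) (q m : ℕ) (_ : q.Prime)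
    (_ : (q : R) ∈ IsLocalRing.maximalIdeal R) (_ : 0 < m) (_ : ¬ q ∣ m)
    (x : F) (_ : Transcendental E x)
    (_ : FiniteDimensional (IntermediateField.adjoin E ({x} : Set F)) F)
    (_ : ∀ f : F, IsAlgebraic E f → f ∈ (algebraMap E F).range)
    (Bf Bi : Subalgebra R F)
    (_ : ∀ f : F, f ∈ Bf ↔ IsIntegral (Algebra.adjoin R ({x} : Set F)) f)
    (_ : ∀ f : F, f ∈ Bi ↔ IsIntegral (Algebra.adjoin R ({x⁻¹} : Set F)) f)
    (cf : SSChart w Bf) (ci : SSChart w Bi)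
    (_ : SepCoord R E x Bf) (_ : SepCoord R E x⁻¹ Bi)
    (V₁ V₂ : ValuationSubring F) (_ : ValCtx w x V₁) (_ : ValCtx w x V₂) (_ : V₁ ≠ V₂)
    (φ : F ≃+* F) (φE : E ≃+* E) (φR : R ≃+* R) (Q : ℕ) (_ : 0 < Q)
    (_ : ∀ e : E, φ (algebraMap E F e) = algebraMap E F (φE e))
    (_ : ∀ r : R, φE (algebraMap R E r) = algebraMap R E (φR r))
    (_ : ∀ r : R, ∃ s : R, φR r - r ^ Q = w * s)
    (_ : φ x = x)
    (_ : ∀ z : F, φ z ∈ V₁ ↔ z ∈ V₁) (_ : ∀ z : F, φ z ∈ V₂ ↔ z ∈ V₂)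
    (_ : ∀ n : Ideal Bf, n.IsMaximal → cf.p₁ ≤ n → cf.p₂ ≤ n →
      ∀ b : Bf, b ∈ n → ∀ hb : φ b ∈ Bf, (⟨φ b, hb⟩ : Bf) ∈ n)
    (_ : ∀ n : Ideal Bi, n.IsMaximal → ci.p₁ ≤ n → ci.p₂ ≤ n →
      ∀ b : Bi, b ∈ n → ∀ hb : φ b ∈ Bi, (⟨φ b, hb⟩ : Bi) ∈ n)
    (u : F), u ≠ 0 → DivisibleDiv E m u → GSplitV R V₁ m u → GSplitV R V₂ m u →
      ∃ h : F, h ≠ 0 ∧ φ u = h ^ m * u ^ Q

/-- **N4 in valuation language from the three leaves of the A2 wall.** -/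
theorem frobToricVal_of_leaves (hPS : H34.PuritySmoothLeaf) (hPN : H34.PurityNodeLeaf)
    (hG : H34.GlueLeaf) : FrobToricValStatement := by
  intro R E F _ _ _ _ _ _ _ _ _ _ _ _ _ w hw q m hq hqR hm hqm x hx hfin hconst Bf Bi hBf hBi
    cf ci sf si V₁ V₂ h₁ h₂ hne φ φE φR Q hQ hφE hφER hfrob hφx hV₁ hV₂ hfixf hfixi u hu hdiv
    hu₁ hu₂
  have hCf : ChartCtx E w x Bf := ⟨hw, hx, hfin, hconst, hBf⟩
  have hCi : ChartCtx E w x⁻¹ Bi := H34.chartCtx_inv w hw x hx hfin hconst Bi hBi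
  have hφR : ∀ r : R, φ (algebraMap R F r) = algebraMap R F (φR r) := by
    intro r
    rw [IsScalarTower.algebraMap_apply R E F, hφE, hφER, ← IsScalarTower.algebraMap_apply]
  have hφxi : φ x⁻¹ = x⁻¹ := by rw [map_inv₀, hφx]
  have hφf : PhiCtx w Bf cf φ Q :=
    phiCtx_of_val w x Bf hCf cf V₁ V₂ h₁ h₂ hne φ φR Q hφR hfrob hφx hV₁ hV₂
  have hφi : PhiCtx w Bi ci φ Q :=
    phiCtx_of_val w x⁻¹ Bi hCi ci V₁ V₂ h₁.inv h₂.inv hne φ φR Q hφR hfrob hφxi hV₁ hV₂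
  obtain ⟨G, hG0, hc₁, hc₂⟩ := exists_constV_of_gSplitV w x Bf hCf cf V₁ V₂ h₁ h₂ hne hu₁ hu₂
  have hGm : G ^ m ≠ 0 := pow_ne_zero _ hG0
  have hu' : u * (G ^ m)⁻¹ ≠ 0 := mul_ne_zero hu (inv_ne_zero hGm)
  have hsf : IsSplit Bf cf (u * (G ^ m)⁻¹) :=
    isSplit_of_constV w x Bf hCf cf V₁ V₂ h₁ h₂ hne hc₁ hc₂
  have hsi : IsSplit Bi ci (u * (G ^ m)⁻¹) :=
    isSplit_of_constV w x⁻¹ Bi hCi ci V₁ V₂ h₁.inv h₂.inv hne hc₁ hc₂
  obtain ⟨h, hh, hrel⟩ := frobToric_of_leaves hPS hPN hG w hw q m hq hqR hm hqm x hx hfin hconst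
    Bf Bi hBf hBi cf ci sf si φ φE Q hQ hφE hφf hφi
    (fun n hn h1 h2 b hb => hfixf n hn h1 h2 b hb _)
    (fun n hn h1 h2 b hb => hfixi n hn h1 h2 b hb _)
    (u * (G ^ m)⁻¹) hu' (divisibleDiv_mul_inv_pow m u G hG0 hdiv) hsf hsi
  have hφG : φ G ≠ 0 := (map_ne_zero φ).2 hG0
  have hGQ : G ^ Q ≠ 0 := pow_ne_zero _ hG0
  refine ⟨h * φ G * (G ^ Q)⁻¹, mul_ne_zero (mul_ne_zero hh hφG) (inv_ne_zero hGQ), ?_⟩
  rw [map_mul, map_inv₀, map_pow] at hrel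
  have hφGm : φ G ^ m ≠ 0 := pow_ne_zero _ hφG
  have e1 : φ u = h ^ m * (u * (G ^ m)⁻¹) ^ Q * φ G ^ m := by
    rw [← hrel, mul_assoc, inv_mul_cancel₀ hφGm, mul_one]
  rw [e1]
  ring

end Fermat.Agent.S35.H433
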