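import Fermat.Agent.S35.H433.PhiAsm

/-!
# S35 / (G) — F4 APPROX: from residues in `kˣ · (κˣ)^m` to split classes (helper433)

* `GSplitAt B p m u` : `u` is a unit on the component `p` whose residue is a constant times an
  `m`-th power (`u = c · y ^ m · (1 + p B_p)`, `y` a unit of `B_p`, `c` a unit of `R`);
* `exists_approx` : weak approximation on the two components of a chart;
* `exists_isSplit_of_gSplit` : if `u` is `GSplitAt` both components, then `u · G⁻ᵐ` is split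
  (`Alg.IsSplit`) for some `G ≠ 0`.
-/

set_option autoImplicit false

namespace Fermat.Agent.S35.H433

open Fermat.Agent.A2 Fermat.Agent.A2.Alg

variable {R F : Type*} [CommRing R] [Field F] [Algebra R F]

/-- `u` is a unit on the component `p` with residue in `kˣ · (κ(p)ˣ)^m`. -/
def GSplitAt (B : Subalgebra R F) (p : Ideal B) (m : ℕ) (u : F) : Prop :=
  ∃ y : F, LocUnit B p y ∧ ConstAt B p (u * (y ^ m)⁻¹)

variable {B : Subalgebra R F}

/-- Converse of `exists_const_of_constAt`. -/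
theorem constAt_of_cong {p : Ideal B} {u : F} {c₀ : R} (hc : IsUnit c₀)
    (h : InLoc B p p (u - algebraMap R F c₀)) : ConstAt B p u := by
  obtain ⟨a, b, ha, hb, hab⟩ := h
  refine ⟨c₀, hc, a + algebraMap R B c₀ * b, b, hb, by simpa using ha, ?_⟩
  push_cast
  rw [← hab]
  ring

theorem constAt_iff {p : Ideal B} [p.IsPrime] {u : F} :
    ConstAt B p u ↔ ∃ c₀ : R, IsUnit c₀ ∧ InLoc B p p (u - algebraMap R F c₀) := by
  constructor
  · intro h
    obtain ⟨c₀, hc, -, hcong⟩ := exists_const_of_constAt h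
    exact ⟨c₀, hc, hcong⟩
  · rintro ⟨c₀, hc, h⟩
    exact constAt_of_cong hc h

/-- A split class is `GSplitAt` both components. -/
theorem gSplitAt_of_constAt {p : Ideal B} [p.IsPrime] {m : ℕ} {u : F} (h : ConstAt B p u) :
    GSplitAt B p m u :=
  ⟨1, locUnit_one p, by simpa using h⟩

/-- **Weak approximation** on the two components of a chart. -/
theorem exists_approx {w : R} (c : SSChart w B) {y₁ y₂ : F} (h₁ : LocUnit B c.p₁ y₁)
    (h₂ : LocUnit B c.p₂ y₂) :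
    ∃ G : F, LocUnit B c.p₁ G ∧ LocUnit B c.p₂ G ∧ InLoc B c.p₁ c.p₁ (G - y₁) ∧
      InLoc B c.p₂ c.p₂ (G - y₂) := by
  have := c.prime₁
  have := c.prime₂
  obtain ⟨G, -, hG₁, hG₂⟩ := exists_patch_smooth (le_refl c.p₁) c.not_le₂₁ c.not_le₁₂
    (locUnit_iff.1 h₁).2.1 (locUnit_iff.1 h₂).2.1
  exact ⟨G, locUnit_of_cong h₁ hG₁, locUnit_of_cong h₂ hG₂, hG₁, hG₂⟩

/-- One component: `u ≡ c y ^ m`, `G ≡ y`  ⟹  `u G⁻ᵐ ≡ c`. -/
theorem constAt_div_pow {p : Ideal B} [hp : p.IsPrime] {m : ℕ} {u y G : F}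
    (hy : LocUnit B p y) (hu : ConstAt B p (u * (y ^ m)⁻¹)) (hG : LocUnit B p G)
    (hGy : InLoc B p p (G - y)) : ConstAt B p (u * (G ^ m)⁻¹) := by
  obtain ⟨c₀, hc, hu', hcong⟩ := exists_const_of_constAt hu
  refine constAt_of_cong hc ?_
  have hym : LocUnit B p (y ^ m) := locUnit_pow hy m
  have hGm : LocUnit B p (G ^ m) := locUnit_pow hG m
  have h1 : InLoc B p p (G ^ m - y ^ m) :=
    cong_pow (locUnit_iff.1 hG).2.1 (locUnit_iff.1 hy).2.1 hGy m
  have h2 : InLoc B p p ((G ^ m)⁻¹ - (y ^ m)⁻¹) := cong_inv hGm hym h1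
  -- `u = (u y⁻ᵐ) yᵐ ∈ B_p`
  have huB : InLoc B p ⊤ u := by
    have e : u = u * (y ^ m)⁻¹ * y ^ m := by
      rw [mul_assoc, inv_mul_cancel₀ (locUnit_ne_zero hym), mul_one]
    rw [e]
    exact (locUnit_iff.1 hu').2.1.mul (locUnit_iff.1 hym).2.1
  have h3 : InLoc B p p (u * (G ^ m)⁻¹ - u * (y ^ m)⁻¹) := by
    rw [← mul_sub]
    exact huB.mul h2
  exact cong_trans h3 hcong

/-- **F4.**  `u` with residues in `kˣ · (κˣ)^m` on both components of a chart becomes split after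
division by an `m`-th power. -/
theorem exists_isSplit_of_gSplit {w : R} (c : SSChart w B) {m : ℕ} {u : F}
    (h₁ : GSplitAt B c.p₁ m u) (h₂ : GSplitAt B c.p₂ m u) :
    ∃ G : F, G ≠ 0 ∧ IsSplit B c (u * (G ^ m)⁻¹) := by
  have := c.prime₁
  have := c.prime₂
  obtain ⟨y₁, hy₁, hu₁⟩ := h₁
  obtain ⟨y₂, hy₂, hu₂⟩ := h₂
  obtain ⟨G, hG₁, hG₂, hc₁, hc₂⟩ := exists_approx c hy₁ hy₂
  exact ⟨G, locUnit_ne_zero hG₁, constAt_div_pow hy₁ hu₁ hG₁ hc₁, constAt_div_pow hy₂ hu₂ hG₂ hc₂⟩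

end Fermat.Agent.S35.H433
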