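import Fermat.Agent.S35.H433.Loc

/-!
# S35 / (G) — congruences in localisations of a chart, normality, patching (helper433)

* `InLoc`-calculus of congruences `x ≡ y mod I B_n` (`InLoc B n I (x - y)`);
* `exists_res_of_pow` (Lemma N): `B / p` integrally closed, `y ∈ B_p`, `y ^ m ≡ z mod p B_p` with
  `z ∈ B_n` (`p ≤ n`)  ⟹  `y ≡ ρ mod p B_p` for some `ρ ∈ B_n`;
* `exists_patch_smooth`, `exists_patch_node`: elements of `B_n` with prescribed residues on the two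
  components.
-/

set_option autoImplicit false

namespace Fermat.Agent.S35.H433

open Fermat.Agent.A2 Fermat.Agent.A2.Alg

variable {R F : Type*} [CommRing R] [Field F] [Algebra R F] {B : Subalgebra R F}

/-! ### congruence calculus -/

theorem cong_mul {n I : Ideal B} [n.IsPrime] {x y x' y' : F} (hx : InLoc B n ⊤ x)
    (hy' : InLoc B n ⊤ y') (h : InLoc B n I (x - y)) (h' : InLoc B n I (x' - y')) :
    InLoc B n I (x * x' - y * y') := by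
  have e : x * x' - y * y' = x * (x' - y') + (x - y) * y' := by ring
  rw [e]
  exact (hx.mul h').add (h.mul' hy')

theorem inLoc_of_cong {n I : Ideal B} [n.IsPrime] {x y : F} (hy : InLoc B n ⊤ y)
    (h : InLoc B n I (x - y)) : InLoc B n ⊤ x := by
  have e : x = y + (x - y) := by ring
  rw [e]
  exact hy.add h.top

theorem cong_pow {n I : Ideal B} [n.IsPrime] {x y : F} (hx : InLoc B n ⊤ x)
    (hy : InLoc B n ⊤ y) (h : InLoc B n I (x - y)) (k : ℕ) :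
    InLoc B n I (x ^ k - y ^ k) := by
  induction k with
  | zero => simpa using inLoc_zero n I
  | succ k ih =>
    rw [pow_succ, pow_succ]
    exact cong_mul (hx.pow k) hy ih h

theorem cong_symm {n I : Ideal B} {x y : F} (h : InLoc B n I (x - y)) : InLoc B n I (y - x) := by
  have := h.neg
  rwa [neg_sub] at this

theorem cong_trans {n I : Ideal B} [n.IsPrime] {x y z : F} (h : InLoc B n I (x - y))
    (h' : InLoc B n I (y - z)) : InLoc B n I (x - z) := by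
  have e : x - z = (x - y) + (y - z) := by ring
  rw [e]
  exact h.add h'

/-- `1 ∉ n B_n`. -/
theorem not_inLoc_one {n : Ideal B} : ¬ InLoc B n n (1 : F) := by
  rintro ⟨a, b, ha, hb, hab⟩
  rw [one_mul] at hab
  have : b = a := Subtype.ext hab
  exact hb (this ▸ ha)

/-- A unit of `B_n` is not in `n B_n`. -/
theorem not_inLoc_of_locUnit {n : Ideal B} [hn : n.IsPrime] {x : F} (hx : LocUnit B n x) :
    ¬ InLoc B n n x := by
  intro h
  obtain ⟨hx0, -, hxi⟩ := locUnit_iff.1 hx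
  have := h.mul' hxi
  rw [mul_inv_cancel₀ hx0] at this
  exact not_inLoc_one this

/-- `x ∈ B_n ∖ n B_n` is a unit of `B_n`. -/
theorem locUnit_of_not_inLoc {n : Ideal B} [hn : n.IsPrime] {x : F} (hx : InLoc B n ⊤ x)
    (hnx : ¬ InLoc B n n x) : LocUnit B n x := by
  have hx0 : x ≠ 0 := by
    rintro rfl
    exact hnx (inLoc_zero n n)
  exact locUnit_iff.2 ⟨hx0, hx, inLoc_inv_of_not hx hnx⟩

/-- Units are stable under congruence modulo `n B_n`. -/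
theorem locUnit_of_cong {n : Ideal B} [hn : n.IsPrime] {x y : F} (hy : LocUnit B n y)
    (h : InLoc B n n (x - y)) : LocUnit B n x := by
  have hy' := (locUnit_iff.1 hy).2.1
  refine locUnit_of_not_inLoc (inLoc_of_cong hy' h) ?_
  intro hx
  apply not_inLoc_of_locUnit hy
  have e : y = x - (x - y) := by ring
  rw [e]
  exact hx.sub h

theorem locUnit_mul {n : Ideal B} [hn : n.IsPrime] {x y : F} (hx : LocUnit B n x)
    (hy : LocUnit B n y) : LocUnit B n (x * y) := by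
  obtain ⟨hx0, hx1, hx2⟩ := locUnit_iff.1 hx
  obtain ⟨hy0, hy1, hy2⟩ := locUnit_iff.1 hy
  refine locUnit_iff.2 ⟨mul_ne_zero hx0 hy0, hx1.mul hy1, ?_⟩
  rw [mul_inv]
  exact hx2.mul hy2

theorem locUnit_inv {n : Ideal B} [hn : n.IsPrime] {x : F} (hx : LocUnit B n x) :
    LocUnit B n x⁻¹ := by
  obtain ⟨hx0, hx1, hx2⟩ := locUnit_iff.1 hx
  refine locUnit_iff.2 ⟨inv_ne_zero hx0, hx2, ?_⟩
  rwa [inv_inv]

theorem locUnit_one (n : Ideal B) [hn : n.IsPrime] : LocUnit B n (1 : F) :=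
  locUnit_iff.2 ⟨one_ne_zero, inLoc_one n, by rw [inv_one]; exact inLoc_one n⟩

theorem locUnit_pow {n : Ideal B} [hn : n.IsPrime] {x : F} (hx : LocUnit B n x) (k : ℕ) :
    LocUnit B n (x ^ k) := by
  induction k with
  | zero => rw [pow_zero]; exact locUnit_one n
  | succ k ih => rw [pow_succ]; exact locUnit_mul ih hx

theorem LocUnit_anti {n p : Ideal B} (hpn : p ≤ n) {x : F} (hx : LocUnit B n x) :
    LocUnit B p x := by
  obtain ⟨a, b, ha, hb, hab⟩ := hx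
  exact ⟨a, b, fun h => ha (hpn h), fun h => hb (hpn h), hab⟩

/-- Inverses of congruent units are congruent. -/
theorem cong_inv {n I : Ideal B} [hn : n.IsPrime] {x y : F} (hx : LocUnit B n x)
    (hy : LocUnit B n y) (h : InLoc B n I (x - y)) : InLoc B n I (x⁻¹ - y⁻¹) := by
  obtain ⟨hx0, -, hx2⟩ := locUnit_iff.1 hx
  obtain ⟨hy0, -, hy2⟩ := locUnit_iff.1 hy
  have e : x⁻¹ - y⁻¹ = x⁻¹ * ((y - x) * y⁻¹) := by
    field_simp
  rw [e]
  exact hx2.mul ((cong_symm h).mul' hy2)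

/-! ### Lemma D: glueing the two components -/

/-- `z ∈ B_n`, `z ≡ 1` on both components  ⟹  `z ∈ 1 + (p₁ ∩ p₂) B_n`. -/
theorem inLoc_inf_of_oneAt {n p₁ p₂ : Ideal B} [hp₁ : p₁.IsPrime] [hp₂ : p₂.IsPrime] {z : F}
    (hz : InLoc B n ⊤ z) (h₁ : InLoc B p₁ p₁ (z - 1)) (h₂ : InLoc B p₂ p₂ (z - 1)) :
    InLoc B n (p₁ ⊓ p₂) (z - 1) := by
  obtain ⟨a, b, -, hb, hab⟩ := hz
  have key : ∀ (p : Ideal B), p.IsPrime → InLoc B p p (z - 1) → a - b ∈ p := by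
    rintro p hp ⟨a', b', ha', hb', hab'⟩
    have h1 : (a - b) * b' = a' * b := by
      apply Subtype.ext
      push_cast
      rw [← hab, ← hab']
      ring
    have h2 : (a - b) * b' ∈ p := by
      rw [h1]
      exact p.mul_mem_right _ ha'
    exact (hp.mem_or_mem h2).resolve_right hb'
  refine ⟨a - b, b, ⟨key p₁ hp₁ h₁, key p₂ hp₂ h₂⟩, hb, ?_⟩
  push_cast
  rw [← hab]
  ring

/-! ### Lemma N: normality of the components -/

/-- Abstract core of Lemma N: in a ring `A` with `A / p` an integrally closed domain,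
`a ^ m e₂ ≡ e₁ b ^ m mod p`, `b ∉ p`, `0 < m`  ⟹  `e₂ a ≡ g b mod p` for some `g`. -/
theorem exists_root_mod {A : Type*} [CommRing A] (p : Ideal A) [hp : p.IsPrime]
    (hnorm : IsIntegrallyClosed (A ⧸ p)) {m : ℕ} (hm : 0 < m) {a b e₁ e₂ : A} (hb : b ∉ p)
    (hkey : a ^ m * e₂ - e₁ * b ^ m ∈ p) : ∃ g : A, e₂ * a - g * b ∈ p := by
  let K := FractionRing (A ⧸ p)
  let ι : A →+* K := (algebraMap (A ⧸ p) K).comp (Ideal.Quotient.mk p)
  have hι : ∀ t : A, ι t = 0 ↔ t ∈ p := by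
    intro t
    show algebraMap (A ⧸ p) K (Ideal.Quotient.mk p t) = 0 ↔ _
    rw [map_eq_zero_iff _ (IsFractionRing.injective (A ⧸ p) K), Ideal.Quotient.eq_zero_iff_mem]
  have hιb : ι b ≠ 0 := fun h' => hb ((hι b).1 h')
  have hkey' : ι a ^ m * ι e₂ = ι e₁ * ι b ^ m := by
    have := (hι _).2 hkey
    rw [map_sub, map_mul, map_mul, map_pow, map_pow, sub_eq_zero] at this
    exact this
  set Y : K := ι (e₂ * a) / ι b with hY
  have hYm : Y ^ m = ι (e₂ ^ (m - 1) * e₁) := by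
    obtain ⟨k, rfl⟩ : ∃ k, m = k + 1 := ⟨m - 1, by omega⟩
    rw [hY, div_pow, map_mul, mul_pow, Nat.add_sub_cancel, map_mul, map_pow]
    rw [div_eq_iff (pow_ne_zero _ hιb)]
    calc ι e₂ ^ (k + 1) * ι a ^ (k + 1) = ι e₂ ^ k * (ι a ^ (k + 1) * ι e₂) := by ring
      _ = ι e₂ ^ k * (ι e₁ * ι b ^ (k + 1)) := by rw [hkey']
      _ = ι e₂ ^ k * ι e₁ * ι b ^ (k + 1) := by ring
  have hint : IsIntegral (A ⧸ p) Y := by
    refine ⟨Polynomial.X ^ m - Polynomial.C (Ideal.Quotient.mk p (e₂ ^ (m - 1) * e₁)),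
      Polynomial.monic_X_pow_sub_C _ hm.ne', ?_⟩
    rw [Polynomial.eval₂_sub, Polynomial.eval₂_pow, Polynomial.eval₂_X, Polynomial.eval₂_C]
    show Y ^ m - ι (e₂ ^ (m - 1) * e₁) = 0
    rw [hYm, sub_self]
  obtain ⟨gbar, hg⟩ := IsIntegrallyClosed.isIntegral_iff.1 hint
  obtain ⟨g, rfl⟩ := Ideal.Quotient.mk_surjective gbar
  have hg' : ι g * ι b = ι (e₂ * a) := by
    have : ι g = Y := hg
    rw [this, hY, div_mul_cancel₀ _ hιb]
  refine ⟨g, ?_⟩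
  rw [← hι, map_sub, sub_eq_zero, ← hg', map_mul]

/-- **Lemma N.**  `B / p` integrally closed, `p ≤ n`, `y ∈ B_p` with `y ^ m ≡ z mod p B_p`,
`z ∈ B_n`, `0 < m`  ⟹  `y ≡ ρ mod p B_p` for some `ρ ∈ B_n`. -/
theorem exists_res_of_pow {n p : Ideal B} [hp : p.IsPrime] (hpn : p ≤ n)
    (hnorm : IsIntegrallyClosed (B ⧸ p)) {m : ℕ} (hm : 0 < m) {y z : F}
    (hy : InLoc B p ⊤ y) (hz : InLoc B n ⊤ z) (h : InLoc B p p (y ^ m - z)) :
    ∃ ρ : F, InLoc B n ⊤ ρ ∧ InLoc B p p (y - ρ) := by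
  obtain ⟨a, b, -, hb, hab⟩ := hy
  obtain ⟨e₁, e₂, -, he₂, he⟩ := hz
  obtain ⟨a₃, b₃, ha₃, hb₃, h₃⟩ := h
  have he₂p : e₂ ∉ p := fun h' => he₂ (hpn h')
  have hb0 : (b : F) ≠ 0 := coe_ne_zero_of_not_mem hb
  have he0 : (e₂ : F) ≠ 0 := coe_ne_zero_of_not_mem he₂
  -- the key congruence in `B`
  have hkey : a ^ m * e₂ - e₁ * b ^ m ∈ p := by
    have h1 : (a ^ m * e₂ - e₁ * b ^ m) * b₃ = a₃ * (b ^ m * e₂) := by
      apply Subtype.ext
      push_cast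
      rw [← h₃, ← hab, ← he]
      ring
    have h2 : (a ^ m * e₂ - e₁ * b ^ m) * b₃ ∈ p := by
      rw [h1]
      exact p.mul_mem_right _ ha₃
    exact (hp.mem_or_mem h2).resolve_right hb₃
  obtain ⟨g, hgp⟩ := exists_root_mod p hnorm hm hb hkey
  refine ⟨(g : F) / e₂, ⟨g, e₂, trivial, he₂, by field_simp⟩,
    ⟨e₂ * a - g * b, b * e₂, hgp, fun h' => (hp.mem_or_mem h').elim hb he₂p, ?_⟩⟩
  push_cast
  rw [← hab]
  field_simp

/-! ### patching -/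

/-- **Patching at a smooth point**: `p₁ ≤ n`, `p₂ ⊄ n`, `p₁ ⊄ p₂`. -/
theorem exists_patch_smooth {n p₁ p₂ : Ideal B} [hn : n.IsPrime] [hp₁ : p₁.IsPrime]
    [hp₂ : p₂.IsPrime] (h1n : p₁ ≤ n) (h2n : ¬ p₂ ≤ n) (h12 : ¬ p₁ ≤ p₂) {ρ₁ ρ₂ : F}
    (hρ₁ : InLoc B n ⊤ ρ₁) (hρ₂ : InLoc B p₂ ⊤ ρ₂) :
    ∃ η : F, InLoc B n ⊤ η ∧ InLoc B p₁ p₁ (η - ρ₁) ∧ InLoc B p₂ p₂ (η - ρ₂) := by
  obtain ⟨a₁, b₁, -, hb₁, hab₁⟩ := hρ₁
  obtain ⟨a₂, b₂, -, hb₂, hab₂⟩ := hρ₂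
  obtain ⟨t, ht2, htn⟩ := SetLike.not_le_iff_exists.1 h2n
  obtain ⟨s, hs1, hs2⟩ := SetLike.not_le_iff_exists.1 h12
  have hb₁p : b₁ ∉ p₁ := fun h => hb₁ (h1n h)
  have hD : t * b₁ + s * b₂ ∉ n := by
    intro h
    have h1 : t * b₁ ∈ n := by
      have : t * b₁ = (t * b₁ + s * b₂) - s * b₂ := by ring
      rw [this]
      exact n.sub_mem h (n.mul_mem_right _ (h1n hs1))
    exact (hn.mem_or_mem h1).elim htn hb₁
  have hD1 : t * b₁ + s * b₂ ∉ p₁ := fun h => hD (h1n h)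
  have hD2 : t * b₁ + s * b₂ ∉ p₂ := by
    intro h
    have h1 : s * b₂ ∈ p₂ := by
      have : s * b₂ = (t * b₁ + s * b₂) - t * b₁ := by ring
      rw [this]
      exact p₂.sub_mem h (p₂.mul_mem_right _ ht2)
    exact (hp₂.mem_or_mem h1).elim hs2 hb₂
  have hD0 : ((t * b₁ + s * b₂ : B) : F) ≠ 0 := coe_ne_zero_of_not_mem hD
  have hb₁0 : (b₁ : F) ≠ 0 := coe_ne_zero_of_not_mem hb₁
  have hb₂0 : (b₂ : F) ≠ 0 := coe_ne_zero_of_not_mem hb₂
  have hρ₁e : ρ₁ = (a₁ : F) / b₁ := by field_simp; exact hab₁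
  have hρ₂e : ρ₂ = (a₂ : F) / b₂ := by field_simp; exact hab₂
  refine ⟨((t * a₁ + s * a₂ : B) : F) / ((t * b₁ + s * b₂ : B) : F),
    ⟨t * a₁ + s * a₂, t * b₁ + s * b₂, trivial, hD, by field_simp⟩,
    ⟨s * (a₂ * b₁ - a₁ * b₂), (t * b₁ + s * b₂) * b₁, p₁.mul_mem_right _ hs1,
      fun h => (hp₁.mem_or_mem h).elim hD1 hb₁p, ?_⟩,
    ⟨t * (a₁ * b₂ - a₂ * b₁), (t * b₁ + s * b₂) * b₂, p₂.mul_mem_right _ ht2,
      fun h => (hp₂.mem_or_mem h).elim hD2 hb₂, ?_⟩⟩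
  · rw [hρ₁e]
    push_cast at hD0 ⊢
    field_simp
    ring
  · rw [hρ₂e]
    push_cast at hD0 ⊢
    field_simp
    ring

/-- **Patching at a crossing point**: residues agreeing modulo `(p₁ + p₂) B_n`. -/
theorem exists_patch_node {n p₁ p₂ : Ideal B} [hn : n.IsPrime] (h1n : p₁ ≤ n) (h2n : p₂ ≤ n)
    {ρ₁ ρ₂ : F} (hρ₁ : InLoc B n ⊤ ρ₁) (h : InLoc B n (p₁ ⊔ p₂) (ρ₁ - ρ₂)) :
    ∃ η : F, InLoc B n ⊤ η ∧ InLoc B p₁ p₁ (η - ρ₁) ∧ InLoc B p₂ p₂ (η - ρ₂) := by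
  obtain ⟨π₁, π₂, hπ₁, hπ₂, e⟩ := h.exists_add
  refine ⟨ρ₁ - π₁, hρ₁.sub hπ₁.top, ?_, ?_⟩
  · have : ρ₁ - π₁ - ρ₁ = -π₁ := by ring
    rw [this]
    exact (hπ₁.anti h1n).neg
  · have : ρ₁ - π₁ - ρ₂ = π₂ := by rw [sub_right_comm, e]; ring
    rw [this]
    exact hπ₂.anti h2n

end Fermat.Agent.S35.H433
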