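import Fermat.Agent.S35.H433.PhiAsm
import Fermat.Agent.A2.Alg.H34.Basic

/-!
# S35 / (G) — N4, the toric Frobenius relation, assembled from the A2-wall leaves (helper433)

`frobToric_of_parts` : in the setting of the A2 wall (`Fermat/Agent/A2/Alg`), let `φ` be a
semilinear automorphism of `F` preserving both charts and their components, acting on constants as
the `Q`-power map modulo `w`, and fixing the crossing points.  If `u` is split with `m ∣ div u`,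
then `φ u = h ^ m · u ^ Q`.

Inputs are the leaves PURITY (P-S + P-N) and GLUE of the A2 wall (both `τ`-free), as hypotheses in
exactly the shape of `Fermat/Agent/A2/Alg/Skel.lean` (origin/helper34).

For `S35`: `φ = σ²` (`σ` a Frobenius lift at `q ‖ N`), `Q = q²`; the conclusion says that `σ²` acts
as `q²` on the toric part of `J₀(N)[m]`.
-/

set_option autoImplicit false

namespace Fermat.Agent.S35.H433

open Fermat.Agent.A2 Fermat.Agent.A2.Alg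

section Div

variable {E F : Type*} [Field E] [Field F] [Algebra E F]

theorem divisibleDiv_pow (m : ℕ) (f : F) (hf : DivisibleDiv E m f) (k : ℕ) :
    DivisibleDiv E m (f ^ k) := by
  intro V hV hE
  obtain ⟨h, u, hh, hu, hu', rfl⟩ := hf V hV hE
  refine ⟨h ^ k, u ^ k, pow_ne_zero _ hh, pow_mem hu k, ?_, ?_⟩
  · rw [← inv_pow]
    exact pow_mem hu' k
  · rw [mul_pow, ← pow_mul, ← pow_mul, mul_comm m k]

end Div

variable {R E F : Type*} [CommRing R] [Field E] [Field F] [Algebra E F] [Algebra R F]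

/-- `w ∈ φ⁻¹ n` for a closed point `n` of the special fibre. -/
theorem PhiCtx.w_mem_comap {w : R} {B : Subalgebra R F} {c : SSChart w B} {φ : F ≃+* F} {Q : ℕ}
    (hφ : PhiCtx w B c φ Q) (hQ : 0 < Q) {n : Ideal B} (hwn : algebraMap R B w ∈ n) :
    algebraMap R B w ∈ n.comap hφ.hom := by
  obtain ⟨s, hs⟩ := hφ.frob w
  have h1 : hφ.hom (algebraMap R B w) = algebraMap R B w ^ Q + algebraMap R B w * s := by
    apply Subtype.ext
    push_cast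
    rw [hφ.coe_hom]
    have e1 : ((algebraMap R B w : B) : F) = algebraMap R F w := rfl
    rw [e1]
    linear_combination hs
  rw [Ideal.mem_comap, h1]
  exact n.add_mem (n.pow_mem_of_mem hwn Q hQ) (n.mul_mem_right _ hwn)

/-- Local factorisations of `φ u / u ^ Q` at all closed points of one chart. -/
theorem locallyFactored_phi {w : R} (B : Subalgebra R F) (c : SSChart w B)
    (φ : F ≃+* F) (Q : ℕ) (hQ : 0 < Q) (hφ : PhiCtx w B c φ Q) (m : ℕ) (hm : 0 < m)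
    (hk : ∀ n : Ideal B, n.IsMaximal → c.p₁ ≤ n → c.p₂ ≤ n →
      ∀ b : B, ∃ r : R, b - algebraMap R B r ∈ n)
    (hfix : ∀ n : Ideal B, n.IsMaximal → c.p₁ ≤ n → c.p₂ ≤ n →
      ∀ b : B, b ∈ n → hφ.hom b ∈ n)
    (htr : ∀ n : Ideal B, n.IsMaximal → c.p₁ ≤ n → c.p₂ ≤ n →
      ∀ b : B, b ∈ n → ∃ s : B, s ∉ n ∧ s * b ∈ c.p₁ ⊔ c.p₂)
    (u : F) (hu : u ≠ 0) (hs : IsSplit B c u)
    (hpur : ∀ n : Ideal B, n.IsMaximal → algebraMap R B w ∈ n → PureAt B c m u n) :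
    LocallyFactored B c m (φ u * (u ^ Q)⁻¹) := by
  intro n hn hwn
  have hn' : (n.comap hφ.hom).IsMaximal :=
    Ideal.comap_isMaximal_of_surjective hφ.hom hφ.hom_surjective
  exact localFactor_phi_of_pureAt w B c φ Q hφ m hm u hu hs n hn hwn (hk n hn) (hfix n hn)
    (htr n hn) (hpur _ hn' (hφ.w_mem_comap hQ hwn)) (hpur n hn hwn)

/-- **N4 (toric Frobenius relation), assembled.**  `u` split on both charts, `m ∣ div u`
⟹ `φ u = h ^ m · u ^ Q`. -/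
theorem frobToric_of_parts (m : ℕ) (hm : 0 < m) (w : R) (Bf Bi : Subalgebra R F)
    (cf : SSChart w Bf) (ci : SSChart w Bi)
    (φ : F ≃+* F) (φE : E ≃+* E) (Q : ℕ) (hQ : 0 < Q)
    (hφE : ∀ e : E, φ (algebraMap E F e) = algebraMap E F (φE e))
    (hφf : PhiCtx w Bf cf φ Q) (hφi : PhiCtx w Bi ci φ Q)
    (hkf : ∀ n : Ideal Bf, n.IsMaximal → cf.p₁ ≤ n → cf.p₂ ≤ n →
      ∀ b : Bf, ∃ r : R, b - algebraMap R Bf r ∈ n)
    (hki : ∀ n : Ideal Bi, n.IsMaximal → ci.p₁ ≤ n → ci.p₂ ≤ n →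
      ∀ b : Bi, ∃ r : R, b - algebraMap R Bi r ∈ n)
    (hfixf : ∀ n : Ideal Bf, n.IsMaximal → cf.p₁ ≤ n → cf.p₂ ≤ n →
      ∀ b : Bf, b ∈ n → hφf.hom b ∈ n)
    (hfixi : ∀ n : Ideal Bi, n.IsMaximal → ci.p₁ ≤ n → ci.p₂ ≤ n →
      ∀ b : Bi, b ∈ n → hφi.hom b ∈ n)
    (htrf : ∀ n : Ideal Bf, n.IsMaximal → cf.p₁ ≤ n → cf.p₂ ≤ n →
      ∀ b : Bf, b ∈ n → ∃ s : Bf, s ∉ n ∧ s * b ∈ cf.p₁ ⊔ cf.p₂)
    (htri : ∀ n : Ideal Bi, n.IsMaximal → ci.p₁ ≤ n → ci.p₂ ≤ n →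
      ∀ b : Bi, b ∈ n → ∃ s : Bi, s ∉ n ∧ s * b ∈ ci.p₁ ⊔ ci.p₂)
    (u : F) (hu : u ≠ 0) (hdiv : DivisibleDiv E m u)
    (hsf : IsSplit Bf cf u) (hsi : IsSplit Bi ci u)
    (hpurf : ∀ n : Ideal Bf, n.IsMaximal → algebraMap R Bf w ∈ n → PureAt Bf cf m u n)
    (hpuri : ∀ n : Ideal Bi, n.IsMaximal → algebraMap R Bi w ∈ n → PureAt Bi ci m u n)
    (hglue : ∀ v : F, v ≠ 0 → DivisibleDiv E m v → LocallyFactored Bf cf m v →
      LocallyFactored Bi ci m v → ∃ y : F, y ≠ 0 ∧ v = y ^ m) :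
    ∃ h : F, h ≠ 0 ∧ φ u = h ^ m * u ^ Q := by
  have hφu : φ u ≠ 0 := (map_ne_zero φ).2 hu
  have huQ : u ^ Q ≠ 0 := pow_ne_zero _ hu
  have hv : φ u * (u ^ Q)⁻¹ ≠ 0 := mul_ne_zero hφu (inv_ne_zero huQ)
  have hdivv : DivisibleDiv E m (φ u * (u ^ Q)⁻¹) :=
    H34.divisibleDiv_mul_inv m _ _ (H34.divisibleDiv_tau φ φE hφE m u hdiv)
      (divisibleDiv_pow m u hdiv Q)
  obtain ⟨y, hy, hyv⟩ := hglue _ hv hdivv
    (locallyFactored_phi Bf cf φ Q hQ hφf m hm hkf hfixf htrf u hu hsf hpurf)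
    (locallyFactored_phi Bi ci φ Q hQ hφi m hm hki hfixi htri u hu hsi hpuri)
  refine ⟨y, hy, ?_⟩
  rw [← hyv, mul_assoc, inv_mul_cancel₀ huQ, mul_one]

end Fermat.Agent.S35.H433
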