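import Fermat.Agent.S35.H433.Approx
import Fermat.Agent.S35.H433.ResField
import Fermat.Agent.A2.Alg.H348.ChartComp

/-!
# S35 / (G) — identification of the components of a chart with valuation subrings (helper433)

`B` a chart (`ChartCtx`), `c : SSChart w B`.  Every valuation subring `V ⊇ B` of `F` with
`w⁻¹ ∉ V` on which the coordinate `x` is non-constant (`x - r` is a unit of `V` for every constant
`r`) is the local ring of one of the two components:

* `eq_locAt_or` : `V = B_{p₁}` or `V = B_{p₂}` (as sets: `z ∈ V ↔ InLoc B pᵢ ⊤ z`);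
* `mem_nonunits_iff_inLoc` : then `𝔪_V = pᵢ B_{pᵢ}`.

Used to translate statements on the Gauss valuations `V∞`, `V₀` (A2/MOD language) into the chart
language of `A2/Alg/Spec.lean` (`LocUnit`, `OneAt`, `ConstAt`, `IsSplit`), for an ARBITRARY
`SSChart` (e.g. one obtained from `Nonempty (SSChart w B)`).
-/

set_option autoImplicit false
set_option linter.unusedSectionVars false

namespace Fermat.Agent.S35.H433

open Fermat.Agent.A2 Fermat.Agent.A2.Alg Fermat.Agent.A2.H348 Fermat.Agent.A2.Alg.H348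

section Core

variable {R F : Type*} [CommRing R] [Field F] [Algebra R F] {B : Subalgebra R F}

theorem inLoc_top_iff_mem_locAt {p : Ideal B} [p.IsPrime] {z : F} :
    InLoc B p ⊤ z ↔ z ∈ locAt B p := by
  constructor
  · rintro ⟨a, b, -, hb, hab⟩
    exact ⟨b, hb, by rw [mul_comm, hab]; exact a.2⟩
  · rintro ⟨s, hs, hsz⟩
    exact ⟨⟨_, hsz⟩, s, trivial, hs, by rw [mul_comm]⟩

/-- The contraction of the maximal ideal of `V ⊇ B` to `B`. -/
def cutIdeal (V : ValuationSubring F) (hBV : ∀ b : B, (b : F) ∈ V) : Ideal B :=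
  Ideal.comap ((B.val : B →+* F).codRestrict V.toSubring hBV) (IsLocalRing.maximalIdeal V)

theorem mem_cutIdeal {V : ValuationSubring F} {hBV : ∀ b : B, (b : F) ∈ V} {b : B} :
    b ∈ cutIdeal V hBV ↔ (b : F) ∈ V.nonunits := by
  rw [cutIdeal, Ideal.mem_comap, ← ValuationSubring.coe_mem_nonunits_iff]
  rfl

instance cutIdeal_isPrime (V : ValuationSubring F) (hBV : ∀ b : B, (b : F) ∈ V) :
    (cutIdeal V hBV).IsPrime :=
  Ideal.comap_isPrime _ _

/-- A non-unit of `B` in `V` which is not in the cut ideal is a unit of `V`. -/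
theorem inv_mem_of_not_mem_cutIdeal {V : ValuationSubring F} {hBV : ∀ b : B, (b : F) ∈ V}
    {b : B} (hb : b ∉ cutIdeal V hBV) : (b : F)⁻¹ ∈ V := by
  rw [mem_cutIdeal, ValuationSubring.mem_nonunits_iff_or, not_or, not_not] at hb
  exact hb.2

/-- **Core.**  If the cut ideal of `V` equals the component `p`, then `V = B_p`. -/
theorem mem_iff_mem_locAt {A : Subalgebra R F} {p p' : Ideal B} [hp : p.IsPrime] {w : R}
    (D : CompData A B p p' w) (hAB : A ≤ B) (V : ValuationSubring F)
    (hBV : ∀ b : B, (b : F) ∈ V) (hwV : (algebraMap R F w)⁻¹ ∉ V)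
    (hcut : cutIdeal V hBV = p) (z : F) : z ∈ V ↔ z ∈ locAt B p := by
  constructor
  · intro hz
    rcases D.mem_or_inv_mem hAB z with h | h
    · exact h
    · by_contra hz'
      have h1 := D.mul_inv_mem h (by rwa [inv_inv])
      obtain ⟨s, hs, hsz⟩ := h1
      -- `z⁻¹ w⁻¹ ∈ B_p ⊆ V`
      have hsV : (s : F)⁻¹ ∈ V := inv_mem_of_not_mem_cutIdeal (hBV := hBV) (by rw [hcut]; exact hs)
      have h2 : z⁻¹ * (algebraMap R F w)⁻¹ ∈ V := by
        have hs0 : (s : F) ≠ 0 := coe_ne_zero_of_not_mem hs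
        have e : z⁻¹ * (algebraMap R F w)⁻¹
            = (s : F)⁻¹ * ((s : F) * (z⁻¹ * (algebraMap R F w)⁻¹)) := by
          rw [← mul_assoc, inv_mul_cancel₀ hs0, one_mul]
        rw [e]
        exact V.mul_mem _ _ hsV (hBV ⟨_, hsz⟩)
      apply hwV
      have hz0 : z ≠ 0 := by
        rintro rfl
        exact hz' (locAt B p).zero_mem
      have e : (algebraMap R F w)⁻¹ = z * (z⁻¹ * (algebraMap R F w)⁻¹) := by
        rw [← mul_assoc, mul_inv_cancel₀ hz0, one_mul]
      rw [e]
      exact V.mul_mem _ _ hz h2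
  · rintro ⟨s, hs, hsz⟩
    have hsV : (s : F)⁻¹ ∈ V := inv_mem_of_not_mem_cutIdeal (hBV := hBV) (by rw [hcut]; exact hs)
    have hs0 : (s : F) ≠ 0 := coe_ne_zero_of_not_mem hs
    have e : z = (s : F)⁻¹ * ((s : F) * z) := by
      rw [← mul_assoc, inv_mul_cancel₀ hs0, one_mul]
    rw [e]
    exact V.mul_mem _ _ hsV (hBV ⟨_, hsz⟩)

/-- If `V = B_p` then `𝔪_V = p B_p`. -/
theorem mem_nonunits_iff_inLoc {p : Ideal B} [hp : p.IsPrime] (V : ValuationSubring F)
    (hV : ∀ z : F, z ∈ V ↔ InLoc B p ⊤ z) (z : F) : z ∈ V.nonunits ↔ InLoc B p p z := by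
  rw [ValuationSubring.mem_nonunits_iff_or]
  constructor
  · rintro (rfl | hz)
    · exact inLoc_zero p p
    · by_contra h
      by_cases hzV : InLoc B p ⊤ z
      · exact hz ((hV _).2 (inLoc_inv_of_not hzV h))
      · -- `z ∉ V`, so `z⁻¹ ∈ V`
        have : z⁻¹ ∈ V := (V.mem_or_inv_mem z).resolve_left (fun h' => hzV ((hV _).1 h'))
        exact hz this
  · intro h
    by_cases hz0 : z = 0
    · exact Or.inl hz0
    · right
      intro hz
      have h1 : InLoc B p ⊤ z⁻¹ := (hV _).1 hz
      have := h.mul' h1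
      rw [mul_inv_cancel₀ hz0] at this
      exact not_inLoc_one this

end Core

section Chart

variable {R E F : Type*} [CommRing R] [IsDomain R] [IsDiscreteValuationRing R]
  [IsAlgClosed (IsLocalRing.ResidueField R)]
  [Field E] [CharZero E] [Algebra R E] [IsFractionRing R E]
  [Field F] [Algebra E F] [Algebra R F] [IsScalarTower R E F]

/-- The cut ideal of `V` is one of the two components. -/
theorem cutIdeal_eq_or (w : R) (x : F) (B : Subalgebra R F) (hB : ChartCtx E w x B)
    (c : SSChart w B) (V : ValuationSubring F) (hBV : ∀ b : B, (b : F) ∈ V)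
    (hwV : (algebraMap R F w)⁻¹ ∉ V) (hxV : ∀ r : R, (x - algebraMap R F r)⁻¹ ∈ V) :
    cutIdeal V hBV = c.p₁ ∨ cutIdeal V hBV = c.p₂ := by
  have hp₁ := c.prime₁
  have hp₂ := c.prime₂
  have hn₁ := c.normal₁
  have hn₂ := c.normal₂
  obtain ⟨hnoeth, -, -⟩ := H34.chart_instances' w x B hB
  have hD₁ : IsDedekindDomain (B ⧸ c.p₁) :=
    H609.isDedekindDomain_quotient_chart w x B hB c.p₁ (mem_w_left c)
  have hD₂ : IsDedekindDomain (B ⧸ c.p₂) :=
    H609.isDedekindDomain_quotient_chart w x B hB c.p₂ (mem_w_right c)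
  set P := cutIdeal V hBV with hP
  have hw0 : algebraMap R F w ≠ 0 := by
    intro h
    apply hwV
    rw [h, inv_zero]
    exact V.zero_mem
  have hwP : algebraMap R B w ∈ P := by
    rw [hP, mem_cutIdeal, ValuationSubring.mem_nonunits_iff_or]
    exact Or.inr hwV
  -- `P` is not maximal
  have hnm : ¬ P.IsMaximal := by
    intro hmax
    obtain ⟨r, hr⟩ := exists_const_sub_mem w x B hB P hmax hwP
      ⟨x, H609.self_mem_chart x B hB.hB⟩
    rw [hP, mem_cutIdeal, ValuationSubring.mem_nonunits_iff_or] at hr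
    rcases hr with hr | hr
    · have h1 := hxV r
      have h2 : x - algebraMap R F r = 0 := hr
      rw [h2, inv_zero] at h1
      -- no contradiction from `0 ∈ V`; use that `x - r ≠ 0` since `x` is transcendental
      have hx : Transcendental R x := H34.transcendental_of_field hB.hx
      apply hx
      refine ⟨Polynomial.X - Polynomial.C r, Polynomial.X_sub_C_ne_zero r, ?_⟩
      simpa using h2
    · exact hr (hxV r)
  have key : ∀ (p : Ideal B) [p.IsPrime] [IsDedekindDomain (B ⧸ p)], p ≤ P → P = p := by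
    intro p _ _ hpP
    refine le_antisymm ?_ hpP
    by_contra hle
    apply hnm
    -- the image of `P` in `B ⧸ p` is a nonzero prime, hence maximal
    have hPb : (P.map (Ideal.Quotient.mk p)).IsPrime :=
      Ideal.map_isPrime_of_surjective Ideal.Quotient.mk_surjective
        (by rw [Ideal.mk_ker]; exact hpP)
    have hne : P.map (Ideal.Quotient.mk p) ≠ ⊥ := by
      intro h
      apply hle
      intro b hb
      have : Ideal.Quotient.mk p b ∈ P.map (Ideal.Quotient.mk p) := Ideal.mem_map_of_mem _ hb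
      rw [h, Ideal.mem_bot, Ideal.Quotient.eq_zero_iff_mem] at this
      exact this
    have hmax : (P.map (Ideal.Quotient.mk p)).IsMaximal := hPb.isMaximal hne
    have hcomap : (P.map (Ideal.Quotient.mk p)).comap (Ideal.Quotient.mk p) = P := by
      rw [Ideal.comap_map_of_surjective _ Ideal.Quotient.mk_surjective, ← RingHom.ker_eq_comap_bot,
        Ideal.mk_ker, sup_eq_left]
      exact hpP
    rw [← hcomap]
    exact Ideal.comap_isMaximal_of_surjective _ Ideal.Quotient.mk_surjective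
  have hle : c.p₁ ⊓ c.p₂ ≤ P := by
    rw [c.inf_eq, Ideal.span_singleton_le_iff_mem]
    exact hwP
  rcases (Ideal.IsPrime.inf_le (cutIdeal_isPrime V hBV)).1 hle with h | h
  · exact Or.inl (key c.p₁ h)
  · exact Or.inr (key c.p₂ h)

/-- **Identification.**  `V = B_{p₁}` or `V = B_{p₂}`. -/
theorem eq_locAt_or (w : R) (x : F) (B : Subalgebra R F) (hB : ChartCtx E w x B)
    (c : SSChart w B) (V : ValuationSubring F) (hBV : ∀ b : B, (b : F) ∈ V)
    (hwV : (algebraMap R F w)⁻¹ ∉ V) (hxV : ∀ r : R, (x - algebraMap R F r)⁻¹ ∈ V) :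
    (∀ z : F, z ∈ V ↔ InLoc B c.p₁ ⊤ z) ∨ (∀ z : F, z ∈ V ↔ InLoc B c.p₂ ⊤ z) := by
  have hp₁ := c.prime₁
  have hp₂ := c.prime₂
  have hAB := adjoin_le_of_ctx hB
  rcases cutIdeal_eq_or w x B hB c V hBV hwV hxV with h | h
  · left
    intro z
    rw [inLoc_top_iff_mem_locAt]
    exact mem_iff_mem_locAt (compData₁ hB c) hAB V hBV hwV h z
  · right
    intro z
    rw [inLoc_top_iff_mem_locAt]
    exact mem_iff_mem_locAt (compData₂ hB c) hAB V hBV hwV h z

end Chart

end Fermat.Agent.S35.H433
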