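import Fermat.Agent.A2.Alg.Spec

/-!
# S35 / (G) — localisations of a chart inside the function field (helper433)

Elementwise API for `B_n ⊆ F` and `I · B_n ⊆ F` (`B` a subalgebra of a field `F`, `n` a prime of
`B`), bridging to the predicates `LocUnit`, `LocOne`, `OneAt` of `Fermat/Agent/A2/Alg/Spec.lean`.
Mathlib-only mathematics.
-/

set_option autoImplicit false

namespace Fermat.Agent.S35.H433

open Fermat.Agent.A2 Fermat.Agent.A2.Alg

variable {R F : Type*} [CommRing R] [Field F] [Algebra R F] (B : Subalgebra R F)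

/-- `u ∈ I · B_n`: `u = a / b`, `a ∈ I`, `b ∉ n`. -/
def InLoc (n I : Ideal B) (u : F) : Prop :=
  ∃ a b : B, a ∈ I ∧ b ∉ n ∧ u * (b : F) = (a : F)

variable {B}

theorem coe_ne_zero_of_not_mem {n : Ideal B} {b : B} (hb : b ∉ n) : (b : F) ≠ 0 := by
  intro h
  apply hb
  have : b = 0 := Subtype.ext h
  rw [this]
  exact n.zero_mem

theorem InLoc.mono {n I J : Ideal B} (hIJ : I ≤ J) {u : F} (h : InLoc B n I u) : InLoc B n J u := by
  obtain ⟨a, b, ha, hb, hab⟩ := h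
  exact ⟨a, b, hIJ ha, hb, hab⟩

theorem InLoc.anti {n n' I : Ideal B} (hn : n' ≤ n) {u : F} (h : InLoc B n I u) :
    InLoc B n' I u := by
  obtain ⟨a, b, ha, hb, hab⟩ := h
  exact ⟨a, b, ha, fun h' => hb (hn h'), hab⟩

theorem inLoc_zero (n I : Ideal B) [n.IsPrime] : InLoc B n I (0 : F) :=
  ⟨0, 1, I.zero_mem, fun h => (Ideal.IsPrime.ne_top ‹_›) ((Ideal.eq_top_iff_one n).2 h), by simp⟩

theorem inLoc_coe {n I : Ideal B} [n.IsPrime] {a : B} (ha : a ∈ I) : InLoc B n I (a : F) :=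
  ⟨a, 1, ha, fun h => (Ideal.IsPrime.ne_top ‹_›) ((Ideal.eq_top_iff_one n).2 h), by simp⟩

theorem inLoc_one (n : Ideal B) [n.IsPrime] : InLoc B n ⊤ (1 : F) :=
  ⟨1, 1, trivial, fun h => (Ideal.IsPrime.ne_top ‹_›) ((Ideal.eq_top_iff_one n).2 h), by simp⟩

theorem InLoc.add {n I : Ideal B} [hn : n.IsPrime] {u v : F} (hu : InLoc B n I u)
    (hv : InLoc B n I v) : InLoc B n I (u + v) := by
  obtain ⟨a, b, ha, hb, hab⟩ := hu
  obtain ⟨a', b', ha', hb', hab'⟩ := hv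
  refine ⟨a * b' + a' * b, b * b', I.add_mem (I.mul_mem_right _ ha) (I.mul_mem_right _ ha'),
    fun h => (hn.mem_or_mem h).elim hb hb', ?_⟩
  push_cast
  rw [← hab, ← hab']
  ring

theorem InLoc.neg {n I : Ideal B} {u : F} (hu : InLoc B n I u) : InLoc B n I (-u) := by
  obtain ⟨a, b, ha, hb, hab⟩ := hu
  refine ⟨-a, b, I.neg_mem ha, hb, ?_⟩
  push_cast
  rw [← hab]
  ring

theorem InLoc.sub {n I : Ideal B} [n.IsPrime] {u v : F} (hu : InLoc B n I u)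
    (hv : InLoc B n I v) : InLoc B n I (u - v) := by
  rw [sub_eq_add_neg]
  exact hu.add hv.neg

/-- `B_n · I B_n ⊆ I B_n`. -/
theorem InLoc.mul {n I : Ideal B} [hn : n.IsPrime] {u v : F} (hu : InLoc B n ⊤ u)
    (hv : InLoc B n I v) : InLoc B n I (u * v) := by
  obtain ⟨a, b, -, hb, hab⟩ := hu
  obtain ⟨a', b', ha', hb', hab'⟩ := hv
  refine ⟨a * a', b * b', I.mul_mem_left _ ha', fun h => (hn.mem_or_mem h).elim hb hb', ?_⟩
  push_cast
  rw [← hab, ← hab']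
  ring

theorem InLoc.mul' {n I : Ideal B} [hn : n.IsPrime] {u v : F} (hu : InLoc B n I u)
    (hv : InLoc B n ⊤ v) : InLoc B n I (u * v) := by
  rw [mul_comm]
  exact hv.mul hu

theorem InLoc.top {n I : Ideal B} {u : F} (hu : InLoc B n I u) : InLoc B n ⊤ u :=
  hu.mono le_top

theorem InLoc.pow {n : Ideal B} [hn : n.IsPrime] {u : F} (hu : InLoc B n ⊤ u) (k : ℕ) :
    InLoc B n ⊤ (u ^ k) := by
  induction k with
  | zero => rw [pow_zero]; exact inLoc_one n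
  | succ k ih => rw [pow_succ]; exact ih.mul hu

/-- Contraction: `I B_n ∩ B_n = I B_n`, in the form: an element of `B_n` lying in `p B_p`
(`p ≤ n` prime) lies in `p B_n`. -/
theorem InLoc.of_le {n p : Ideal B} [hp : p.IsPrime] {u : F} (hu : InLoc B n ⊤ u)
    (hup : InLoc B p p u) : InLoc B n p u := by
  obtain ⟨a, b, -, hb, hab⟩ := hu
  obtain ⟨a', b', ha', hb', hab'⟩ := hup
  refine ⟨a, b, ?_, hb, hab⟩
  have h1 : a * b' = a' * b := by
    apply Subtype.ext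
    push_cast
    rw [← hab, ← hab']
    ring
  have h2 : a * b' ∈ p := by
    rw [h1]
    exact p.mul_mem_right _ ha'
  exact (hp.mem_or_mem h2).resolve_right hb'

/-- `p₁ B_n ∩ p₂ B_n = (p₁ ∩ p₂) B_n`. -/
theorem InLoc.inf {n p₁ p₂ : Ideal B} [hn : n.IsPrime] {u : F} (h₁ : InLoc B n p₁ u)
    (h₂ : InLoc B n p₂ u) : InLoc B n (p₁ ⊓ p₂) u := by
  obtain ⟨a, b, ha, hb, hab⟩ := h₁
  obtain ⟨a', b', ha', hb', hab'⟩ := h₂
  refine ⟨a * b', b * b', ⟨p₁.mul_mem_right _ ha, ?_⟩, fun h => (hn.mem_or_mem h).elim hb hb', ?_⟩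
  · have h1 : a * b' = a' * b := by
      apply Subtype.ext
      push_cast
      rw [← hab, ← hab']
      ring
    rw [h1]
    exact p₂.mul_mem_right _ ha'
  · push_cast
    rw [← hab]
    ring

/-- `(p₁ + p₂) B_n = p₁ B_n + p₂ B_n`. -/
theorem InLoc.exists_add {n p₁ p₂ : Ideal B} {u : F} (h : InLoc B n (p₁ ⊔ p₂) u) :
    ∃ u₁ u₂ : F, InLoc B n p₁ u₁ ∧ InLoc B n p₂ u₂ ∧ u = u₁ + u₂ := by
  obtain ⟨a, b, ha, hb, hab⟩ := h
  obtain ⟨a₁, ha₁, a₂, ha₂, rfl⟩ := Submodule.mem_sup.1 ha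
  have hb0 : (b : F) ≠ 0 := coe_ne_zero_of_not_mem hb
  refine ⟨(a₁ : F) / b, (a₂ : F) / b, ⟨a₁, b, ha₁, hb, by field_simp⟩,
    ⟨a₂, b, ha₂, hb, by field_simp⟩, ?_⟩
  push_cast at hab
  field_simp
  exact hab

/-- An element of `B_p` outside `p B_p` is a unit of `B_p`. -/
theorem inLoc_inv_of_not {p : Ideal B} {u : F} (hu : InLoc B p ⊤ u) (hnu : ¬ InLoc B p p u) :
    InLoc B p ⊤ u⁻¹ := by
  obtain ⟨a, b, -, hb, hab⟩ := hu
  have ha : a ∉ p := fun ha => hnu ⟨a, b, ha, hb, hab⟩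
  have ha0 : (a : F) ≠ 0 := coe_ne_zero_of_not_mem ha
  have hb0 : (b : F) ≠ 0 := coe_ne_zero_of_not_mem hb
  refine ⟨b, a, trivial, ha, ?_⟩
  have hu0 : u ≠ 0 := by
    rintro rfl
    rw [zero_mul] at hab
    exact ha0 hab.symm
  rw [← hab]
  field_simp

/-! ### Bridges to `Alg/Spec.lean` -/

theorem locUnit_ne_zero {n : Ideal B} {u : F} (h : LocUnit B n u) : u ≠ 0 := by
  obtain ⟨a, b, ha, hb, hab⟩ := h
  rintro rfl
  rw [zero_mul] at hab
  exact coe_ne_zero_of_not_mem ha hab.symm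

theorem locUnit_iff {n : Ideal B} [hn : n.IsPrime] {u : F} :
    LocUnit B n u ↔ u ≠ 0 ∧ InLoc B n ⊤ u ∧ InLoc B n ⊤ u⁻¹ := by
  constructor
  · intro h
    have hu0 := locUnit_ne_zero h
    obtain ⟨a, b, ha, hb, hab⟩ := h
    have ha0 : (a : F) ≠ 0 := coe_ne_zero_of_not_mem ha
    have hb0 : (b : F) ≠ 0 := coe_ne_zero_of_not_mem hb
    refine ⟨hu0, ⟨a, b, trivial, hb, hab⟩, ⟨b, a, trivial, ha, ?_⟩⟩
    rw [← hab]
    field_simp
  · rintro ⟨hu0, ⟨a, b, -, hb, hab⟩, ⟨a', b', -, hb', hab'⟩⟩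
    have hb0 : (b : F) ≠ 0 := coe_ne_zero_of_not_mem hb
    have hb'0 : (b' : F) ≠ 0 := coe_ne_zero_of_not_mem hb'
    refine ⟨a, b, ?_, hb, hab⟩
    intro ha
    have h1 : a * a' = b * b' := by
      apply Subtype.ext
      push_cast
      rw [← hab, ← hab']
      field_simp
    have h2 : b * b' ∈ n := by
      rw [← h1]
      exact n.mul_mem_right _ ha
    exact (hn.mem_or_mem h2).elim hb hb'

theorem locOne_iff {n I : Ideal B} {u : F} : LocOne B n I u ↔ InLoc B n I (u - 1) := by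
  constructor
  · rintro ⟨a, b, hb, hab, h⟩
    refine ⟨a - b, b, hab, hb, ?_⟩
    push_cast
    rw [← h]
    ring
  · rintro ⟨a, b, ha, hb, h⟩
    refine ⟨a + b, b, hb, by simpa using ha, ?_⟩
    push_cast
    rw [← h]
    ring

theorem oneAt_iff {p : Ideal B} {u : F} : OneAt B p u ↔ InLoc B p p (u - 1) :=
  locOne_iff

end Fermat.Agent.S35.H433
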