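import Fermat.Agent.S35.H433.Cong

/-!
# S35 / (G) — `φ`-ASM: local factorisation of `φ u / u ^ Q` for split `u` (helper433)

`φ` = a semilinear automorphism of the function field `F` which preserves a chart `B` of a
semistable model and its two components, acts on the constants as the `Q`-power map modulo `w`
and FIXES THE CROSSING POINTS (for `S35`: `φ = Frob²` at a prime `q ‖ N`, `Q = q²`; the crossing
points of `X₀(N)` mod `q` are supersingular, hence `𝔽_{q²}`-rational).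

`localFactor_phi_of_pureAt` : purity data for `u` at `φ⁻¹ n` and at `n` (leaves P-S / P-N of the
A2 wall, `Fermat/Agent/A2/Alg`), `u` split  ⟹  `LocalFactor B c m (φ u / u ^ Q) n`.

Together with the leaf GLUE of the A2 wall this gives `φ u = h ^ m · u ^ Q` (`FrobToric.lean`).
-/

set_option autoImplicit false

namespace Fermat.Agent.S35.H433

open Fermat.Agent.A2 Fermat.Agent.A2.Alg

variable {R F : Type*} [CommRing R] [Field F] [Algebra R F]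

/-- The standing hypotheses on `φ`, on one chart. -/
structure PhiCtx (w : R) (B : Subalgebra R F) (c : SSChart w B) (φ : F ≃+* F) (Q : ℕ) :
    Prop where
  /-- `φ` maps the chart into itself -/
  mapB : ∀ b : F, b ∈ B → φ b ∈ B
  /-- `φ⁻¹` maps the chart into itself -/
  mapB' : ∀ b : F, φ b ∈ B → b ∈ B
  /-- `φ` preserves the first component -/
  map₁ : ∀ b : B, (⟨φ b, mapB b b.2⟩ : B) ∈ c.p₁ ↔ b ∈ c.p₁
  /-- `φ` preserves the second component -/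
  map₂ : ∀ b : B, (⟨φ b, mapB b b.2⟩ : B) ∈ c.p₂ ↔ b ∈ c.p₂
  /-- `φ` is the `Q`-power map on constants modulo `w` -/
  frob : ∀ r : R, ∃ s : B, φ (algebraMap R F r) - algebraMap R F r ^ Q = algebraMap R F w * s

variable {w : R} {B : Subalgebra R F} {c : SSChart w B} {φ : F ≃+* F} {Q : ℕ}

/-- The restriction of `φ` to the chart. -/
def PhiCtx.hom (hφ : PhiCtx w B c φ Q) : B →+* B where
  toFun b := ⟨φ b, hφ.mapB b b.2⟩
  map_one' := Subtype.ext (by simp)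
  map_mul' a b := Subtype.ext (by simp)
  map_zero' := Subtype.ext (by simp)
  map_add' a b := Subtype.ext (by simp)

@[simp] theorem PhiCtx.coe_hom (hφ : PhiCtx w B c φ Q) (b : B) : ((hφ.hom b : B) : F) = φ b := rfl

/-- Transport of `I B_{n'}` to `J B_n` along `φ`. -/
theorem PhiCtx.inLoc (hφ : PhiCtx w B c φ Q) {n n' I J : Ideal B}
    (hnn' : ∀ b : B, b ∉ n' → hφ.hom b ∉ n) (hIJ : ∀ b : B, b ∈ I → hφ.hom b ∈ J) {u : F}
    (h : InLoc B n' I u) : InLoc B n J (φ u) := by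
  obtain ⟨a, b, ha, hb, hab⟩ := h
  refine ⟨hφ.hom a, hφ.hom b, hIJ a ha, hnn' b hb, ?_⟩
  rw [hφ.coe_hom, hφ.coe_hom, ← map_mul, hab]

/-- Transport of units of `B_{n'}` to units of `B_n` along `φ`. -/
theorem PhiCtx.locUnit (hφ : PhiCtx w B c φ Q) {n n' : Ideal B}
    (hnn' : ∀ b : B, b ∉ n' → hφ.hom b ∉ n) {u : F} (h : LocUnit B n' u) :
    LocUnit B n (φ u) := by
  obtain ⟨a, b, ha, hb, hab⟩ := h
  refine ⟨hφ.hom a, hφ.hom b, hnn' a ha, hnn' b hb, ?_⟩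
  rw [hφ.coe_hom, hφ.coe_hom, ← map_mul, hab]

theorem PhiCtx.hom_surjective (hφ : PhiCtx w B c φ Q) : Function.Surjective hφ.hom := by
  intro b
  refine ⟨⟨φ.symm b, hφ.mapB' _ (by rw [φ.apply_symm_apply]; exact b.2)⟩, ?_⟩
  apply Subtype.ext
  rw [hφ.coe_hom]
  exact φ.apply_symm_apply _

theorem PhiCtx.not_mem_comap (hφ : PhiCtx w B c φ Q) (n : Ideal B) :
    ∀ b : B, b ∉ n.comap hφ.hom → hφ.hom b ∉ n := fun _ hb => hb

theorem mem_w_left (c : SSChart w B) : algebraMap R B w ∈ c.p₁ := by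
  have : algebraMap R B w ∈ c.p₁ ⊓ c.p₂ := by
    rw [c.inf_eq]
    exact Ideal.mem_span_singleton_self _
  exact this.1

theorem mem_w_right (c : SSChart w B) : algebraMap R B w ∈ c.p₂ := by
  have : algebraMap R B w ∈ c.p₁ ⊓ c.p₂ := by
    rw [c.inf_eq]
    exact Ideal.mem_span_singleton_self _
  exact this.2

/-- A unit constant is a unit of every `B_p`. -/
theorem locUnit_const {p : Ideal B} [hp : p.IsPrime] {c₀ : R} (hc : IsUnit c₀) :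
    LocUnit B p (algebraMap R F c₀) := by
  have hu : IsUnit (algebraMap R B c₀) := hc.map _
  have hnp : algebraMap R B c₀ ∉ p := fun h => hp.ne_top (Ideal.eq_top_of_isUnit_mem _ h hu)
  refine ⟨algebraMap R B c₀, 1, hnp, fun h => hp.ne_top ((Ideal.eq_top_iff_one p).2 h), ?_⟩
  simp

/-- Data extracted from `ConstAt`: `u` is a unit at `p`, congruent to a unit constant. -/
theorem exists_const_of_constAt {p : Ideal B} [hp : p.IsPrime] {u : F} (h : ConstAt B p u) :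
    ∃ c₀ : R, IsUnit c₀ ∧ LocUnit B p u ∧ InLoc B p p (u - algebraMap R F c₀) := by
  obtain ⟨c₀, hc, a, b, hb, hab, hu⟩ := h
  have hcong : InLoc B p p (u - algebraMap R F c₀) := by
    refine ⟨a - algebraMap R B c₀ * b, b, hab, hb, ?_⟩
    push_cast
    rw [← hu]
    ring
  exact ⟨c₀, hc, locUnit_of_cong (locUnit_const hc) hcong, hcong⟩

/-- **Step 2.**  `u` with constant residue at a `φ`-stable component `p`  ⟹  `φ u / u ^ Q ≡ 1`
on `p`. -/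
theorem PhiCtx.cong_one_of_constAt (hφ : PhiCtx w B c φ Q) {p : Ideal B} [hp : p.IsPrime]
    (hwp : algebraMap R B w ∈ p) (hmap : ∀ b : B, hφ.hom b ∈ p ↔ b ∈ p) {u : F}
    (h : ConstAt B p u) : InLoc B p p (φ u * (u ^ Q)⁻¹ - 1) := by
  obtain ⟨c₀, hc, huu, hcong⟩ := exists_const_of_constAt h
  have hcu : LocUnit B p (algebraMap R F c₀) := locUnit_const hc
  have hnn : ∀ b : B, b ∉ p → hφ.hom b ∉ p := fun b hb h' => hb ((hmap b).1 h')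
  have hII : ∀ b : B, b ∈ p → hφ.hom b ∈ p := fun b hb => (hmap b).2 hb
  -- `φ u ≡ φ c₀ ≡ c₀ ^ Q`
  have h1 : InLoc B p p (φ u - φ (algebraMap R F c₀)) := by
    rw [← map_sub]
    exact hφ.inLoc hnn hII hcong
  have h2 : InLoc B p p (φ (algebraMap R F c₀) - algebraMap R F c₀ ^ Q) := by
    obtain ⟨s, hs⟩ := hφ.frob c₀
    rw [hs]
    have : algebraMap R F w * (s : F) = ((algebraMap R B w * s : B) : F) := rfl
    rw [this]
    exact inLoc_coe (p.mul_mem_right _ hwp)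
  have h3 : InLoc B p p (φ u - algebraMap R F c₀ ^ Q) := cong_trans h1 h2
  have hcQ : LocUnit B p (algebraMap R F c₀ ^ Q) := locUnit_pow hcu Q
  have huQ : LocUnit B p (u ^ Q) := locUnit_pow huu Q
  have h4 : InLoc B p p (u ^ Q - algebraMap R F c₀ ^ Q) :=
    cong_pow (locUnit_iff.1 huu).2.1 (locUnit_iff.1 hcu).2.1 hcong Q
  have h5 := cong_inv huQ hcQ h4
  have hφu : LocUnit B p (φ u) := locUnit_of_cong hcQ h3
  have h6 := cong_mul (locUnit_iff.1 hφu).2.1 (locUnit_iff.1 hcQ).2.2 h3 h5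
  rwa [mul_inv_cancel₀ (locUnit_iff.1 hcQ).1] at h6

/-- **Step 6.**  The final assembly of a local factorisation. -/
theorem localFactor_of_patch (c : SSChart w B) {m : ℕ} {v δ υ η : F} {n : Ideal B}
    [hn : n.IsPrime] (hrel : v * δ ^ m = υ) (hυ : InLoc B n ⊤ υ) (hη : InLoc B n ⊤ η)
    (hδ₁ : LocUnit B c.p₁ δ) (hδ₂ : LocUnit B c.p₂ δ)
    (hv₁ : InLoc B c.p₁ c.p₁ (v - 1)) (hv₂ : InLoc B c.p₂ c.p₂ (v - 1))
    (hη₁ : InLoc B c.p₁ c.p₁ (η - δ⁻¹)) (hη₂ : InLoc B c.p₂ c.p₂ (η - δ⁻¹)) :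
    LocalFactor B c m v n := by
  have := c.prime₁
  have := c.prime₂
  have hδ0 : δ ≠ 0 := locUnit_ne_zero hδ₁
  have key : ∀ (p : Ideal B) [p.IsPrime], LocUnit B p δ → InLoc B p p (v - 1) →
      InLoc B p p (η - δ⁻¹) → InLoc B p p (δ * η - 1) ∧ InLoc B p p (v * (δ * η) ^ m - 1) := by
    intro p _ hδ hv hη'
    have hδ' := (locUnit_iff.1 hδ).2.1
    have h1 : InLoc B p p (δ * η - 1) := by
      have e : δ * η - 1 = δ * (η - δ⁻¹) := by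
        rw [mul_sub, mul_inv_cancel₀ hδ0]
      rw [e]
      exact hδ'.mul hη'
    have hone : InLoc B p ⊤ (1 : F) := inLoc_one p
    have hh : InLoc B p ⊤ (δ * η) := inLoc_of_cong hone h1
    have hvv : InLoc B p ⊤ v := inLoc_of_cong hone hv
    have h2 := cong_pow hh hone h1 m
    have h3 := cong_mul hvv (hone.pow m) hv h2
    rw [one_pow, one_mul] at h3
    exact ⟨h1, h3⟩
  obtain ⟨h11, h12⟩ := key c.p₁ hδ₁ hv₁ hη₁
  obtain ⟨h21, h22⟩ := key c.p₂ hδ₂ hv₂ hη₂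
  have hη0 : η ≠ 0 := by
    rintro rfl
    rw [mul_zero, zero_sub] at h11
    have := h11.neg
    rw [neg_neg] at this
    exact not_inLoc_one this
  refine ⟨δ * η, mul_ne_zero hδ0 hη0, ?_, oneAt_iff.2 h11, oneAt_iff.2 h21⟩
  rw [locOne_iff, ← c.inf_eq]
  have hmem : InLoc B n ⊤ (v * (δ * η) ^ m) := by
    have e : v * (δ * η) ^ m = υ * η ^ m := by
      rw [mul_pow, ← mul_assoc, hrel]
    rw [e]
    exact hυ.mul (hη.pow m)
  exact inLoc_inf_of_oneAt hmem h12 h22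

/-- **Step 4/5, smooth case.**  `n` lies on the component `p` and not on `p'`. -/
theorem exists_eta_smooth {n p p' : Ideal B} [hn : n.IsPrime] [hp : p.IsPrime]
    [hp' : p'.IsPrime] (hpn : p ≤ n) (hp'n : ¬ p' ≤ n) (hpp' : ¬ p ≤ p')
    (hnorm : IsIntegrallyClosed (B ⧸ p)) {m : ℕ} (hm : 0 < m) {v δ υ : F}
    (hrel : v * δ ^ m = υ) (hυ : LocUnit B n υ)
    (hδ : LocUnit B p δ) (hδ' : LocUnit B p' δ) (hv : InLoc B p p (v - 1)) :
    ∃ η : F, InLoc B n ⊤ η ∧ InLoc B p p (η - δ⁻¹) ∧ InLoc B p' p' (η - δ⁻¹) := by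
  obtain ⟨hδ0, hδ1, hδ2⟩ := locUnit_iff.1 hδ
  obtain ⟨hυ0, hυ1, hυ2⟩ := locUnit_iff.1 hυ
  have hpow : InLoc B p p (δ⁻¹ ^ m - υ⁻¹) := by
    have e : δ⁻¹ ^ m - υ⁻¹ = (v - 1) * υ⁻¹ := by
      rw [← hrel] at hυ0 ⊢
      have hv0 : v ≠ 0 := left_ne_zero_of_mul hυ0
      have hδm : δ ^ m ≠ 0 := pow_ne_zero _ hδ0
      rw [inv_pow, mul_inv, sub_mul, one_mul, ← mul_assoc, mul_inv_cancel₀ hv0, one_mul]
    rw [e]
    exact hv.mul' (hυ2.anti hpn)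
  obtain ⟨ρ, hρ, hρ'⟩ := exists_res_of_pow hpn hnorm hm hδ2 hυ2 hpow
  obtain ⟨η, hη, hη₁, hη₂⟩ := exists_patch_smooth hpn hp'n hpp' hρ (locUnit_iff.1 hδ').2.2
  exact ⟨η, hη, cong_trans hη₁ (cong_symm hρ'), hη₂⟩

/-! ### crossing points -/

/-- `φ` fixes `n` as a set. -/
theorem PhiCtx.mem_of_hom_mem (hφ : PhiCtx w B c φ Q) {n : Ideal B} (hn : n.IsMaximal)
    (hfix : ∀ b : B, b ∈ n → hφ.hom b ∈ n) (b : B) (h : hφ.hom b ∈ n) : b ∈ n := by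
  have hle : n ≤ n.comap hφ.hom := fun x hx => hfix x hx
  have hne : n.comap hφ.hom ≠ ⊤ := (Ideal.comap_isPrime hφ.hom n).ne_top
  have := hn.eq_of_le hne hle
  rw [this]
  exact h

/-- **Lemma EV.**  At a fixed closed point with residue field `R / w`, `φ b ≡ b ^ Q`. -/
theorem PhiCtx.hom_sub_pow_mem (hφ : PhiCtx w B c φ Q) {n : Ideal B}
    (hwn : algebraMap R B w ∈ n) (hk : ∀ b : B, ∃ r : R, b - algebraMap R B r ∈ n)
    (hfix : ∀ b : B, b ∈ n → hφ.hom b ∈ n) (a : B) : hφ.hom a - a ^ Q ∈ n := by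
  obtain ⟨r, hr⟩ := hk a
  obtain ⟨s, hs⟩ := hφ.frob r
  have h1 : hφ.hom (algebraMap R B r) - algebraMap R B r ^ Q = algebraMap R B w * s := by
    apply Subtype.ext
    push_cast
    rw [hφ.coe_hom]
    exact hs
  have h2 : a ^ Q - algebraMap R B r ^ Q ∈ n := by
    obtain ⟨t, ht⟩ := sub_dvd_pow_sub_pow a (algebraMap R B r) Q
    rw [ht]
    exact n.mul_mem_right _ hr
  have e : hφ.hom a - a ^ Q = hφ.hom (a - algebraMap R B r) + algebraMap R B w * s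
      - (a ^ Q - algebraMap R B r ^ Q) := by
    rw [← h1, map_sub]
    ring
  rw [e]
  exact n.sub_mem (n.add_mem (hfix _ hr) (n.mul_mem_right _ hwn)) h2

/-- At a fixed closed point, `φ ρ / ρ ^ Q ≡ 1 mod n B_n` for every unit `ρ` of `B_n`. -/
theorem PhiCtx.cong_one_of_fixed (hφ : PhiCtx w B c φ Q) {n : Ideal B} (hn : n.IsMaximal)
    (hwn : algebraMap R B w ∈ n) (hk : ∀ b : B, ∃ r : R, b - algebraMap R B r ∈ n)
    (hfix : ∀ b : B, b ∈ n → hφ.hom b ∈ n) {ρ : F} (hρ : LocUnit B n ρ) :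
    InLoc B n n (φ ρ * (ρ ^ Q)⁻¹ - 1) := by
  have hnp := hn.isPrime
  obtain ⟨a, b, ha, hb, hab⟩ := hρ
  have ha0 : (a : F) ≠ 0 := coe_ne_zero_of_not_mem ha
  have hb0 : (b : F) ≠ 0 := coe_ne_zero_of_not_mem hb
  have hφb : hφ.hom b ∉ n := fun h => hb (hφ.mem_of_hom_mem hn hfix b h)
  have hφb0 : φ (b : F) ≠ 0 := (map_ne_zero φ).2 hb0
  refine ⟨hφ.hom a * b ^ Q - a ^ Q * hφ.hom b, hφ.hom b * a ^ Q, ?_, ?_, ?_⟩
  · have e : hφ.hom a * b ^ Q - a ^ Q * hφ.hom b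
        = (hφ.hom a - a ^ Q) * b ^ Q - a ^ Q * (hφ.hom b - b ^ Q) := by ring
    rw [e]
    exact n.sub_mem (n.mul_mem_right _ (hφ.hom_sub_pow_mem hwn hk hfix a))
      (n.mul_mem_left _ (hφ.hom_sub_pow_mem hwn hk hfix b))
  · intro h
    rcases hnp.mem_or_mem h with h | h
    · exact hφb h
    · exact ha (hnp.mem_of_pow_mem _ h)
  · have hρe : ρ = (a : F) / b := by
      field_simp
      exact hab
    push_cast
    rw [hφ.coe_hom, hφ.coe_hom, hρe, map_div₀, div_pow]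
    field_simp

/-- **Step 4, crossing point, one branch.**  `d ≡ r` on the branch `p` for a unit `r` of `B_n`;
hence `φ d / d ^ Q ≡ θ := φ r / r ^ Q` on `p`, and `θ ≡ 1 mod n`. -/
theorem PhiCtx.exists_theta (hφ : PhiCtx w B c φ Q) {n p : Ideal B} (hn : n.IsMaximal)
    [hp : p.IsPrime] (hpn : p ≤ n) (hmap : ∀ b : B, hφ.hom b ∈ p ↔ b ∈ p)
    (hnorm : IsIntegrallyClosed (B ⧸ p))
    (hwn : algebraMap R B w ∈ n) (hk : ∀ b : B, ∃ r : R, b - algebraMap R B r ∈ n)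
    (hfix : ∀ b : B, b ∈ n → hφ.hom b ∈ n) {m : ℕ} (hm : 0 < m) {u d : F}
    (hu : ConstAt B p u) (hd : LocUnit B p d) (hε : LocUnit B n (u * d ^ m)) :
    ∃ θ : F, LocUnit B n θ ∧ InLoc B n n (θ - 1) ∧ InLoc B p p (φ d * (d ^ Q)⁻¹ - θ) := by
  have hnp := hn.isPrime
  obtain ⟨c₀, hc, huu, hcong⟩ := exists_const_of_constAt hu
  obtain ⟨hu0, hu1, hu2⟩ := locUnit_iff.1 huu
  obtain ⟨hd0, hd1, hd2⟩ := locUnit_iff.1 hd
  obtain ⟨hε0, hε1, hε2⟩ := locUnit_iff.1 hε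
  have hcn : LocUnit B n (algebraMap R F c₀) := locUnit_const hc
  have hcp : LocUnit B p (algebraMap R F c₀) := locUnit_const hc
  obtain ⟨hc0, hc1, hc2⟩ := locUnit_iff.1 hcn
  have hdm0 : d ^ m ≠ 0 := pow_ne_zero _ hd0
  -- `d ^ m ≡ ε c₀⁻¹` and `d⁻¹ ^ m ≡ c₀ ε⁻¹` on `p`
  have hinv : InLoc B p p (u⁻¹ - (algebraMap R F c₀)⁻¹) := cong_inv huu hcp hcong
  have h1 : InLoc B p p (d ^ m - (u * d ^ m) * (algebraMap R F c₀)⁻¹) := by
    have e : d ^ m - (u * d ^ m) * (algebraMap R F c₀)⁻¹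
        = (u * d ^ m) * (u⁻¹ - (algebraMap R F c₀)⁻¹) := by
      field_simp
    rw [e]
    exact (hε1.anti hpn).mul hinv
  have h2 : InLoc B p p (d⁻¹ ^ m - algebraMap R F c₀ * (u * d ^ m)⁻¹) := by
    have e : d⁻¹ ^ m - algebraMap R F c₀ * (u * d ^ m)⁻¹
        = (u - algebraMap R F c₀) * (u * d ^ m)⁻¹ := by
      rw [sub_mul, mul_inv, mul_inv_cancel_left₀ hu0, inv_pow]
    rw [e]
    exact hcong.mul' (hε2.anti hpn)
  obtain ⟨r, hr, hr'⟩ := exists_res_of_pow hpn hnorm hm hd1 (hε1.mul hc2) h1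
  obtain ⟨r', hr₂, hr₂'⟩ := exists_res_of_pow hpn hnorm hm hd2 (hc1.mul hε2) h2
  -- `r r' ≡ 1`, so `r` is a unit of `B_n`
  have h3 : InLoc B p p (r * r' - 1) := by
    have := cong_mul (hr.anti hpn) hd2 (cong_symm hr') (cong_symm hr₂')
    rwa [mul_inv_cancel₀ hd0] at this
  have h4 : InLoc B n n (r * r' - 1) := (InLoc.of_le ((hr.mul hr₂).sub (inLoc_one n)) h3).mono hpn
  have h5 : LocUnit B n (r * r') := locUnit_of_cong (locUnit_one n) h4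
  have hr0 : r ≠ 0 := left_ne_zero_of_mul (locUnit_ne_zero h5)
  have hrU : LocUnit B n r := by
    refine locUnit_iff.2 ⟨hr0, hr, ?_⟩
    have e : r⁻¹ = r' * (r * r')⁻¹ := by
      have hr'0 : r' ≠ 0 := right_ne_zero_of_mul (locUnit_ne_zero h5)
      field_simp
    rw [e]
    exact hr₂.mul (locUnit_iff.1 h5).2.2
  have hrp : LocUnit B p r := LocUnit_anti hpn hrU
  -- transport along `φ`
  have hnn : ∀ b : B, b ∉ n → hφ.hom b ∉ n := fun b hb h => hb (hφ.mem_of_hom_mem hn hfix b h)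
  have hpp : ∀ b : B, b ∉ p → hφ.hom b ∉ p := fun b hb h => hb ((hmap b).1 h)
  have hpI : ∀ b : B, b ∈ p → hφ.hom b ∈ p := fun b hb => (hmap b).2 hb
  have hφr : LocUnit B n (φ r) := hφ.locUnit hnn hrU
  have hφd : LocUnit B p (φ d) := hφ.locUnit hpp hd
  have hrQ : LocUnit B n (r ^ Q) := locUnit_pow hrU Q
  refine ⟨φ r * (r ^ Q)⁻¹, locUnit_mul hφr (locUnit_inv hrQ),
    hφ.cong_one_of_fixed hn hwn hk hfix hrU, ?_⟩
  have h6 : InLoc B p p (φ d - φ r) := by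
    rw [← map_sub]
    exact hφ.inLoc hpp hpI hr'
  have h7 : InLoc B p p (d ^ Q - r ^ Q) := cong_pow hd1 (hr.anti hpn) hr' Q
  have h8 := cong_inv (locUnit_pow hd Q) (locUnit_pow hrp Q) h7
  exact cong_mul (locUnit_iff.1 hφd).2.1 (locUnit_iff.1 (locUnit_pow hrp Q)).2.2 h6 h8

/-- **Step 4/5, crossing point.** -/
theorem PhiCtx.exists_eta_node (hφ : PhiCtx w B c φ Q) {n : Ideal B} (hn : n.IsMaximal)
    (h1n : c.p₁ ≤ n) (h2n : c.p₂ ≤ n)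
    (hwn : algebraMap R B w ∈ n) (hk : ∀ b : B, ∃ r : R, b - algebraMap R B r ∈ n)
    (hfix : ∀ b : B, b ∈ n → hφ.hom b ∈ n)
    (htr : ∀ b : B, b ∈ n → ∃ s : B, s ∉ n ∧ s * b ∈ c.p₁ ⊔ c.p₂)
    {m : ℕ} (hm : 0 < m) {u d : F} (hs : IsSplit B c u)
    (hd₁ : LocUnit B c.p₁ d) (hd₂ : LocUnit B c.p₂ d) (hε : LocUnit B n (u * d ^ m)) :
    ∃ η : F, InLoc B n ⊤ η ∧ InLoc B c.p₁ c.p₁ (η - (φ d * (d ^ Q)⁻¹)⁻¹) ∧
      InLoc B c.p₂ c.p₂ (η - (φ d * (d ^ Q)⁻¹)⁻¹) := by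
  have hnp := hn.isPrime
  have hp₁ := c.prime₁
  have hp₂ := c.prime₂
  obtain ⟨θ₁, hθ₁, hθ₁n, hθ₁p⟩ :=
    hφ.exists_theta hn h1n hφ.map₁ c.normal₁ hwn hk hfix hm hs.1 hd₁ hε
  obtain ⟨θ₂, hθ₂, hθ₂n, hθ₂p⟩ :=
    hφ.exists_theta hn h2n hφ.map₂ c.normal₂ hwn hk hfix hm hs.2 hd₂ hε
  have hpp₁ : ∀ b : B, b ∉ c.p₁ → hφ.hom b ∉ c.p₁ := fun b hb h => hb ((hφ.map₁ b).1 h)
  have hpp₂ : ∀ b : B, b ∉ c.p₂ → hφ.hom b ∉ c.p₂ := fun b hb h => hb ((hφ.map₂ b).1 h)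
  have hδ₁ : LocUnit B c.p₁ (φ d * (d ^ Q)⁻¹) :=
    locUnit_mul (hφ.locUnit hpp₁ hd₁) (locUnit_inv (locUnit_pow hd₁ Q))
  have hδ₂ : LocUnit B c.p₂ (φ d * (d ^ Q)⁻¹) :=
    locUnit_mul (hφ.locUnit hpp₂ hd₂) (locUnit_inv (locUnit_pow hd₂ Q))
  -- the residues `θ_i⁻¹` agree at `n`
  have e₁ : InLoc B n n (θ₁⁻¹ - 1) := by
    have := cong_inv hθ₁ (locUnit_one n) hθ₁n
    rwa [inv_one] at this
  have e₂ : InLoc B n n (θ₂⁻¹ - 1) := by
    have := cong_inv hθ₂ (locUnit_one n) hθ₂n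
    rwa [inv_one] at this
  have e₃ : InLoc B n n (θ₁⁻¹ - θ₂⁻¹) := cong_trans e₁ (cong_symm e₂)
  have e₄ : InLoc B n (c.p₁ ⊔ c.p₂) (θ₁⁻¹ - θ₂⁻¹) := by
    obtain ⟨a, b, ha, hb, hab⟩ := e₃
    obtain ⟨s, hs, hsa⟩ := htr a ha
    refine ⟨s * a, s * b, hsa, fun h => (hnp.mem_or_mem h).elim hs hb, ?_⟩
    push_cast
    rw [← hab]
    ring
  obtain ⟨η, hη, hη₁, hη₂⟩ := exists_patch_node h1n h2n (locUnit_iff.1 hθ₁).2.2 e₄
  refine ⟨η, hη, cong_trans hη₁ (cong_symm ?_), cong_trans hη₂ (cong_symm ?_)⟩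
  · exact cong_inv hδ₁ (LocUnit_anti h1n hθ₁) hθ₁p
  · exact cong_inv hδ₂ (LocUnit_anti h2n hθ₂) hθ₂p

/-! ### the theorem -/

/-- **`φ`-ASM.**  Purity data for a split `u` at `φ⁻¹ n` and at `n`  ⟹  local factorisation of
`φ u / u ^ Q` at `n`.  At a crossing point `n` one needs: `n` is fixed by `φ`, the residue field
of `n` is that of `R`, and the two components are transversal at `n`. -/
theorem localFactor_phi_of_pureAt (w : R) (B : Subalgebra R F) (c : SSChart w B)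
    (φ : F ≃+* F) (Q : ℕ) (hφ : PhiCtx w B c φ Q)
    (m : ℕ) (hm : 0 < m) (u : F) (hu : u ≠ 0) (hs : IsSplit B c u)
    (n : Ideal B) (hn : n.IsMaximal) (hwn : algebraMap R B w ∈ n)
    (hk : c.p₁ ≤ n → c.p₂ ≤ n → ∀ b : B, ∃ r : R, b - algebraMap R B r ∈ n)
    (hfix : c.p₁ ≤ n → c.p₂ ≤ n → ∀ b : B, b ∈ n → hφ.hom b ∈ n)
    (htr : c.p₁ ≤ n → c.p₂ ≤ n → ∀ b : B, b ∈ n → ∃ s : B, s ∉ n ∧ s * b ∈ c.p₁ ⊔ c.p₂)
    (h' : PureAt B c m u (n.comap hφ.hom)) (h : PureAt B c m u n) :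
    LocalFactor B c m (φ u * (u ^ Q)⁻¹) n := by
  have hnp := hn.isPrime
  have hp₁ := c.prime₁
  have hp₂ := c.prime₂
  have hpp₁ : ∀ b : B, b ∉ c.p₁ → hφ.hom b ∉ c.p₁ := fun b hb h => hb ((hφ.map₁ b).1 h)
  have hpp₂ : ∀ b : B, b ∉ c.p₂ → hφ.hom b ∉ c.p₂ := fun b hb h => hb ((hφ.map₂ b).1 h)
  have hv₁ := hφ.cong_one_of_constAt (mem_w_left c) hφ.map₁ hs.1
  have hv₂ := hφ.cong_one_of_constAt (mem_w_right c) hφ.map₂ hs.2
  obtain ⟨d, hd0, hε, hd₁, hd₂⟩ := h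
  have hφu : φ u ≠ 0 := (map_ne_zero φ).2 hu
  by_cases h1n : c.p₁ ≤ n
  · by_cases h2n : c.p₂ ≤ n
    · -- crossing point
      have hfix' := hfix h1n h2n
      have hnn : ∀ b : B, b ∉ n → hφ.hom b ∉ n :=
        fun b hb h => hb (hφ.mem_of_hom_mem hn hfix' b h)
      obtain ⟨η, hη, hη₁, hη₂⟩ := hφ.exists_eta_node hn h1n h2n hwn (hk h1n h2n) hfix'
        (htr h1n h2n) hm hs hd₁ hd₂ hε
      have hrel : φ u * (u ^ Q)⁻¹ * (φ d * (d ^ Q)⁻¹) ^ m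
          = φ (u * d ^ m) * ((u * d ^ m) ^ Q)⁻¹ := by
        rw [map_mul, map_pow]
        ring
      exact localFactor_of_patch c hrel
        (locUnit_iff.1 (locUnit_mul (hφ.locUnit hnn hε) (locUnit_inv (locUnit_pow hε Q)))).2.1 hη
        (locUnit_mul (hφ.locUnit hpp₁ hd₁) (locUnit_inv (locUnit_pow hd₁ Q)))
        (locUnit_mul (hφ.locUnit hpp₂ hd₂) (locUnit_inv (locUnit_pow hd₂ Q)))
        hv₁ hv₂ hη₁ hη₂
    · -- smooth point on the first component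
      obtain ⟨d', hd'0, hε', hd'₁, hd'₂⟩ := h'
      have hδ₁ : LocUnit B c.p₁ (φ d' * (d ^ Q)⁻¹) :=
        locUnit_mul (hφ.locUnit hpp₁ hd'₁) (locUnit_inv (locUnit_pow hd₁ Q))
      have hδ₂ : LocUnit B c.p₂ (φ d' * (d ^ Q)⁻¹) :=
        locUnit_mul (hφ.locUnit hpp₂ hd'₂) (locUnit_inv (locUnit_pow hd₂ Q))
      have hυ : LocUnit B n (φ (u * d' ^ m) * ((u * d ^ m) ^ Q)⁻¹) :=
        locUnit_mul (hφ.locUnit (hφ.not_mem_comap n) hε') (locUnit_inv (locUnit_pow hε Q))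
      have hrel : φ u * (u ^ Q)⁻¹ * (φ d' * (d ^ Q)⁻¹) ^ m
          = φ (u * d' ^ m) * ((u * d ^ m) ^ Q)⁻¹ := by
        rw [map_mul, map_pow]
        ring
      obtain ⟨η, hη, hη₁, hη₂⟩ :=
        exists_eta_smooth h1n h2n c.not_le₁₂ c.normal₁ hm hrel hυ hδ₁ hδ₂ hv₁
      exact localFactor_of_patch c hrel (locUnit_iff.1 hυ).2.1 hη hδ₁ hδ₂ hv₁ hv₂ hη₁ hη₂
  · -- smooth point on the second component
    have h2n : c.p₂ ≤ n := by
      have hle : c.p₁ ⊓ c.p₂ ≤ n := by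
        rw [c.inf_eq, Ideal.span_singleton_le_iff_mem]
        exact hwn
      rcases (Ideal.IsPrime.inf_le hnp).1 hle with h | h
      · exact absurd h h1n
      · exact h
    obtain ⟨d', hd'0, hε', hd'₁, hd'₂⟩ := h'
    have hδ₁ : LocUnit B c.p₁ (φ d' * (d ^ Q)⁻¹) :=
      locUnit_mul (hφ.locUnit hpp₁ hd'₁) (locUnit_inv (locUnit_pow hd₁ Q))
    have hδ₂ : LocUnit B c.p₂ (φ d' * (d ^ Q)⁻¹) :=
      locUnit_mul (hφ.locUnit hpp₂ hd'₂) (locUnit_inv (locUnit_pow hd₂ Q))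
    have hυ : LocUnit B n (φ (u * d' ^ m) * ((u * d ^ m) ^ Q)⁻¹) :=
      locUnit_mul (hφ.locUnit (hφ.not_mem_comap n) hε') (locUnit_inv (locUnit_pow hε Q))
    have hrel : φ u * (u ^ Q)⁻¹ * (φ d' * (d ^ Q)⁻¹) ^ m
        = φ (u * d' ^ m) * ((u * d ^ m) ^ Q)⁻¹ := by
      rw [map_mul, map_pow]
      ring
    obtain ⟨η, hη, hη₂, hη₁⟩ :=
      exists_eta_smooth h2n h1n c.not_le₂₁ c.normal₂ hm hrel hυ hδ₂ hδ₁ hv₂
    exact localFactor_of_patch c hrel (locUnit_iff.1 hυ).2.1 hη hδ₁ hδ₂ hv₁ hv₂ hη₁ hη₂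

end Fermat.Agent.S35.H433
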